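/-
S15lib / ORD / Norm  (helper5)  — Project E, block ORD, part 5 (the norm formula to first order)

`ℓ ∤ N`, `A ∣ ℓ`.  For integral modular functions `a, b ∈ V.IntRing N A` and `π ∈ 𝔪_A`, `π ≠ 0`:

  `N_α (β (b + π a)) = c + π c₁`,  `c = N_α (β b)`,  `c̄₁ = (Fr⁻¹ ā)^ℓ · Fr b̄`,
  `c̄ = (Fr⁻¹ b̄)^ℓ · Fr b̄`

(`S37lib.ConjNorm.exists_norm_reduction` redone to first order in `π`).
-/
import Mathlib
import Fermat.Agent.S37lib.ConjNorm.Reduce

set_option autoImplicit false
set_option linter.unusedSectionVars false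
set_option linter.style.haveILetI false

noncomputable section

namespace Fermat.Agent.S15lib.ORD

open AlgebraicCurve ModularCurve Fermat.Agent.S28lib Fermat.Agent.S18lib Polynomial
open Fermat.Agent.S37lib.ConjNorm Fermat.Agent.S37lib

/-! ### products to first order -/

theorem prod_add_mul_eq {R ι : Type*} [CommRing R] [DecidableEq ι] (s : Finset ι)
    (B A : ι → R) (π : R) :
    ∃ C : R, ∏ i ∈ s, (B i + π * A i)
      = ∏ i ∈ s, B i + π * (∑ i ∈ s, A i * ∏ j ∈ s.erase i, B j) + π ^ 2 * C := by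
  induction s using Finset.induction_on with
  | empty => exact ⟨0, by simp⟩
  | insert a s ha ih =>
    obtain ⟨C, hC⟩ := ih
    refine ⟨A a * (∑ i ∈ s, A i * ∏ j ∈ s.erase i, B j) + B a * C + π * A a * C, ?_⟩
    have hsum : ∑ i ∈ insert a s, A i * ∏ j ∈ (insert a s).erase i, B j
        = A a * ∏ j ∈ s, B j + B a * ∑ i ∈ s, A i * ∏ j ∈ s.erase i, B j := by
      rw [Finset.sum_insert ha, Finset.erase_insert ha, Finset.mul_sum]
      congr 1
      refine Finset.sum_congr rfl fun i hi => ?_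
      have hne : a ≠ i := fun h => ha (h ▸ hi)
      rw [Finset.erase_insert_of_ne hne,
        Finset.prod_insert (fun h => ha (Finset.mem_of_mem_erase h))]
      ring
    rw [Finset.prod_insert ha, Finset.prod_insert ha, hC, hsum]
    ring

/-- the first order term dies under a ring homomorphism killing `π` and `card s`, if the images of
the factors do not depend on the index -/
theorem prod_add_mul_eq' {R R' ι : Type*} [CommRing R] [CommRing R'] [DecidableEq ι]
    (φ : R →+* R') (s : Finset ι) (B A : ι → R) (π : R) (hπ : φ π = 0)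
    (hcard : (s.card : R') = 0) {a b : R'} (hA : ∀ i ∈ s, φ (A i) = a)
    (hB : ∀ i ∈ s, φ (B i) = b) :
    ∃ C₁ : R, ∏ i ∈ s, (B i + π * A i) = ∏ i ∈ s, B i + π * C₁ ∧ φ C₁ = 0 := by
  obtain ⟨C, hC⟩ := prod_add_mul_eq s B A π
  refine ⟨(∑ i ∈ s, A i * ∏ j ∈ s.erase i, B j) + π * C, by rw [hC]; ring, ?_⟩
  rw [map_add, map_mul, hπ, zero_mul, add_zero, map_sum]
  have h1 : ∀ i ∈ s, φ (A i * ∏ j ∈ s.erase i, B j) = a * b ^ (s.card - 1) := by
    intro i hi
    rw [map_mul, hA i hi, map_prod,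
      Finset.prod_congr rfl fun j hj => hB j (Finset.mem_of_mem_erase hj), Finset.prod_const,
      Finset.card_erase_of_mem hi]
  rw [Finset.sum_congr rfl h1, Finset.sum_const, nsmul_eq_mul, hcard, zero_mul]

/-! ### the norm to first order -/

section Main

local notation "Qb" => AlgebraicClosure ℚ

variable (N : ℕ) [NeZero N] (A : ValuationSubring Qb) {ℓ : ℕ} [Fact ℓ.Prime] [NeZero ℓ]
  [CharP (kRes A) ℓ]

/-- the expansion of the norm of an integral modular function (from the norm formula) -/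
theorem qExpand_norm_int (hℓN : ¬ ℓ ∣ N) {ζA : Aˣ}
    (hζ : IsPrimitiveRoot (Units.map (A.subtype : A →* Qb) ζA) ℓ) (x c : V.IntRing N A)
    (hc : letI := algebraAlong (heckeAlphaBar Qb N ℓ)
      V.elemL c = Algebra.norm (FBar N) (heckeBetaBar Qb N ℓ (V.elemL x))) :
    qExpand A (N * ℓ * (N * ℓ)) c.1 = qExpand A (ℓ * (N * ℓ * (N * ℓ))) x.1 *
      ∏ i ∈ Finset.range ℓ, qExpand A (N * N * ℓ) (twist (ζA ^ i) x.1) := by
  letI := algebraAlong (heckeAlphaBar Qb N ℓ)
  have hℓ : ℓ.Prime := Fact.out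
  have hnorm := qExpand_norm_heckeBetaBar N ℓ hℓ hℓN hζ (V.elemL x)
  apply V.toL_injective
  have h1 : V.toL A (qExpand A (N * ℓ * (N * ℓ)) c.1)
      = qExpand Qb (N * ℓ * (N * ℓ)) ((V.elemL c : FBar N) : LaurentSeries Qb) :=
    coeffMap_qExpand _ _ _
  rw [h1, hc, hnorm, map_mul, map_prod]
  congr 1
  · exact (coeffMap_qExpand _ _ _).symm
  · refine Finset.prod_congr rfl (fun i _ => ?_)
    show _ = coeffMap A.subtype (qExpand A (N * N * ℓ) (twist (ζA ^ i) x.1))
    rw [coeffMap_qExpand, coeffMap_twist, map_pow]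
    rfl

/-- **the norm formula to first order in `π`** -/
theorem exists_norm_first_order (hA : A.LiesOverPrime ℓ) (hℓN : ¬ ℓ ∣ N) (a b : V.IntRing N A)
    (π : A) (hπ0 : π ≠ 0) (hπ : π ∈ IsLocalRing.maximalIdeal A) :
    letI := algebraAlong (heckeAlphaBar Qb N ℓ)
    ∃ c c₁ : V.IntRing N A,
      V.elemL c = Algebra.norm (FBar N) (heckeBetaBar Qb N ℓ (V.elemL b)) ∧
      V.elemL (c + V.constI π * c₁) =
        Algebra.norm (FBar N) (heckeBetaBar Qb N ℓ (V.elemL (b + V.constI π * a))) ∧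
      V.toK A c.1 =
        (coeffMap ((frobeniusEquiv (kRes A) ℓ).symm : kRes A →+* kRes A) (V.toK A b.1)) ^ ℓ *
          coeffMap (frobenius (kRes A) ℓ) (V.toK A b.1) ∧
      V.toK A c₁.1 =
        (coeffMap ((frobeniusEquiv (kRes A) ℓ).symm : kRes A →+* kRes A) (V.toK A a.1)) ^ ℓ *
          coeffMap (frobenius (kRes A) ℓ) (V.toK A b.1) := by
  classical
  letI := algebraAlong (heckeAlphaBar Qb N ℓ)
  have hℓ : ℓ.Prime := Fact.out
  haveI := charP_laurentSeries (R := kRes A) ℓ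
  -- roots of unity
  have hζ : IsPrimitiveRoot (modPolyDataQbar ℓ).ζ ℓ := (modPolyDataQbar ℓ).prim
  obtain ⟨ζA, hζA⟩ := exists_unit_eq A hζ
  have hζ' : IsPrimitiveRoot (Units.map (A.subtype : A →* Qb) ζA) ℓ := hζA ▸ hζ
  have hζApow : ζA ^ ℓ = 1 := by
    apply Units.map_injective (f := (A.subtype : A →* Qb)) Subtype.val_injective
    rw [map_pow, hζA, map_one]
    exact hζ.pow_eq_one
  have hζk1 : Units.map (IsLocalRing.residue A : A →* kRes A) ζA = 1 :=
    eq_one_of_pow_eq_one A hA (by rw [← map_pow, hζApow, map_one])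
  -- the two norms
  obtain ⟨c, hc1, hc2⟩ := exists_norm_reduction N A hA hℓN b
  obtain ⟨c', hc'1, -⟩ := exists_norm_reduction N A hA hℓN (b + V.constI π * a)
  have hexp := qExpand_norm_int N A hℓN hζ' b c hc1
  have hexp' := qExpand_norm_int N A hℓN hζ' (b + V.constI π * a) c' hc'1
  -- the constant series `π`
  set cπ : LaurentSeries A := HahnSeries.C (π : A) with hcπ
  have hconst : (V.constI (N := N) π : V.IntRing N A).1 = cπ := by
    rw [hcπ, HahnSeries.C_apply]; rfl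
  have hx1 : (b + V.constI π * a : V.IntRing N A).1 = b.1 + cπ * a.1 := by
    rw [← hconst]; rfl
  have hcπK : V.toK A cπ = 0 := by
    rw [hcπ, HahnSeries.C_apply]
    show coeffMap (IsLocalRing.residue A) (HahnSeries.single 0 π) = 0
    rw [coeffMap_single, (IsLocalRing.residue_eq_zero_iff π).2 hπ, HahnSeries.single_eq_zero]
  -- abbreviations
  set abar : LaurentSeries (kRes A) := V.toK A a.1 with habar
  set bbar : LaurentSeries (kRes A) := V.toK A b.1 with hbbar
  set B₀ := qExpand A (ℓ * (N * ℓ * (N * ℓ))) b.1 with hB₀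
  set A₀ := qExpand A (ℓ * (N * ℓ * (N * ℓ))) a.1 with hA₀
  set Bi : ℕ → LaurentSeries A := fun i => qExpand A (N * N * ℓ) (twist (ζA ^ i) b.1) with hBi
  set Ai : ℕ → LaurentSeries A := fun i => qExpand A (N * N * ℓ) (twist (ζA ^ i) a.1) with hAi
  have hfac0 : qExpand A (ℓ * (N * ℓ * (N * ℓ))) (b.1 + cπ * a.1) = B₀ + cπ * A₀ := by
    rw [map_add, map_mul, hcπ, qExpand_C]
  have hfaci : ∀ i : ℕ, qExpand A (N * N * ℓ) (twist (ζA ^ i) (b.1 + cπ * a.1))
      = Bi i + cπ * Ai i := by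
    intro i
    rw [map_add, map_mul, map_add, map_mul, hcπ, twist_C, qExpand_C]
  have hAiK : ∀ i ∈ Finset.range ℓ, V.toK A (Ai i) = qExpand (kRes A) (N * N * ℓ) abar := by
    intro i _
    show coeffMap (IsLocalRing.residue A) (qExpand A (N * N * ℓ) (twist (ζA ^ i) a.1)) = _
    rw [coeffMap_qExpand, coeffMap_twist, map_pow, hζk1, one_pow, twist_one_unit]
    rfl
  have hBiK : ∀ i ∈ Finset.range ℓ, V.toK A (Bi i) = qExpand (kRes A) (N * N * ℓ) bbar := by
    intro i _
    show coeffMap (IsLocalRing.residue A) (qExpand A (N * N * ℓ) (twist (ζA ^ i) b.1)) = _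
    rw [coeffMap_qExpand, coeffMap_twist, map_pow, hζk1, one_pow, twist_one_unit]
    rfl
  have hcard : ((Finset.range ℓ).card : LaurentSeries (kRes A)) = 0 := by
    rw [Finset.card_range]
    exact CharP.cast_eq_zero _ ℓ
  obtain ⟨C₁', hC₁', hC₁'K⟩ := prod_add_mul_eq' (V.toK A) (Finset.range ℓ) Bi Ai cπ hcπK hcard
    hAiK hBiK
  -- the first order term
  set C₁ := A₀ * ∏ i ∈ Finset.range ℓ, Bi i + (B₀ + cπ * A₀) * C₁' with hC₁
  have hdiff : qExpand A (N * ℓ * (N * ℓ)) c'.1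
      = qExpand A (N * ℓ * (N * ℓ)) c.1 + cπ * C₁ := by
    rw [hexp', hexp, hx1, hfac0, Finset.prod_congr rfl fun i _ => hfaci i, hC₁', hC₁]
    ring
  have hC₁K : V.toK A C₁ = qExpand (kRes A) (ℓ * (N * ℓ * (N * ℓ))) abar *
      (qExpand (kRes A) (N * N * ℓ) bbar) ^ ℓ := by
    rw [hC₁, map_add, map_mul, map_mul, hC₁'K, mul_zero, add_zero, map_prod,
      Finset.prod_congr rfl hBiK, Finset.prod_const, Finset.card_range]
    congr 1
    exact coeffMap_qExpand _ _ _
  -- descend `C₁`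
  have hπA : (π : A) ≠ 0 := hπ0
  have hrange : C₁ ∈ Set.range (qExpand A (N * ℓ * (N * ℓ))) := by
    rw [mem_range_qExpand_iff]
    intro n hn
    have h1 : (cπ * C₁).coeff n = 0 := by
      have h2 : cπ * C₁ = qExpand A (N * ℓ * (N * ℓ)) (c'.1 - c.1) := by
        rw [map_sub, hdiff]; ring
      rw [h2]
      exact qExpand_coeff_of_not_dvd _ _ hn
    rw [hcπ, HahnSeries.C_apply, HahnSeries.coeff_single_zero_mul] at h1
    exact (mul_eq_zero.1 h1).resolve_left hπA
  obtain ⟨c₁, hc₁⟩ := hrange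
  have hc'eq : c'.1 = c.1 + cπ * c₁ := by
    apply qExpand_injective (R := A) (N * ℓ * (N * ℓ))
    rw [hdiff, map_add, map_mul, hc₁, hcπ, qExpand_C]
  -- reduction of `c₁`
  have h1 : (qExpand (kRes A) (N * N * ℓ) bbar) ^ ℓ =
      qExpand (kRes A) (N * ℓ * (N * ℓ)) (coeffMap (frobenius (kRes A) ℓ) bbar) := by
    rw [← map_pow, pow_char_eq_qExpand ℓ bbar, qExpand_qExpand]
    exact qExpand_congr (by ring) _
  have h2 : qExpand (kRes A) (ℓ * (N * ℓ * (N * ℓ))) abar =
      qExpand (kRes A) (N * ℓ * (N * ℓ))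
        ((coeffMap ((frobeniusEquiv (kRes A) ℓ).symm : kRes A →+* kRes A) abar) ^ ℓ) := by
    rw [pow_char_eq_qExpand ℓ, coeffMap_frobenius_symm, qExpand_qExpand]
    exact qExpand_congr (mul_comm _ _) _
  have hKc₁ : V.toK A c₁ =
      (coeffMap ((frobeniusEquiv (kRes A) ℓ).symm : kRes A →+* kRes A) abar) ^ ℓ *
        coeffMap (frobenius (kRes A) ℓ) bbar := by
    apply qExpand_injective (R := kRes A) (N * ℓ * (N * ℓ))
    rw [map_mul, ← h1, ← h2, ← hC₁K, ← hc₁]
    exact (coeffMap_qExpand _ _ _).symm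
  -- membership
  have hcπL : V.toL A cπ = algebraMap Qb (LaurentSeries Qb) ((π : A) : Qb) := by
    rw [hcπ, HahnSeries.C_apply]
    exact V.toL_constA π
  have hπQ : ((π : A) : Qb) ≠ 0 := fun h => hπ0 (Subtype.ext h)
  have hmem : c₁ ∈ V.IntRing N A := by
    refine ⟨?_, ?_⟩
    · have h3 : V.toL A c₁ = (algebraMap Qb (LaurentSeries Qb) ((π : A) : Qb))⁻¹ *
          (V.toL A c'.1 - V.toL A c.1) := by
        rw [hc'eq, map_add, map_mul, hcπL, add_sub_cancel_left, inv_mul_cancel_left₀]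
        exact (_root_.map_ne_zero _).2 hπQ
      rw [h3]
      exact mul_mem (inv_mem (IntermediateField.algebraMap_mem _ _)) (sub_mem c'.2.1 c.2.1)
    · rw [hKc₁]
      exact mul_mem (pow_mem (coeffMap_mem_fullC N _ a.2.2) ℓ) (coeffMap_mem_fullC N _ b.2.2)
  refine ⟨c, ⟨c₁, hmem⟩, hc1, ?_, hc2, hKc₁⟩
  rw [← hc'1]
  congr 1
  apply Subtype.ext
  show (c + V.constI π * ⟨c₁, hmem⟩ : V.IntRing N A).1 = c'.1
  rw [hc'eq, ← hconst]
  rfl

end Main

end Fermat.Agent.S15lib.ORD
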