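/-
S15lib / ORD / Hecke  (helper5)  — Project E, block ORD, part 6 (the Hecke step `T_ℓ`, modular instance)

`ℓ ∤ N`, `A ∣ ℓ`, `D = S19lib.B.modDatum N A`.  For a normal form `(E, f)` of `x ∈ J₀(N)[ℓ]`:

* `(T_ℓ E, N_α (β f))` is a normal form of `T_ℓ x`, of depth `≤` the depth of `(E, f)`;
* if `(E, f)` is below top, `T_ℓ x` has a STRICTLY deeper normal form
  (`N_α (β (1 + π g)) = 1 + π G`, `Ḡ = (Fr⁻¹ ḡ)^ℓ`, then `NForm.exists_deeper`).
-/
import Mathlib
import Fermat.Agent.S15lib.ORD.Step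
import Fermat.Agent.S15lib.ORD.Norm
import Fermat.Agent.S19lib.B.Inst
import Fermat.Agent.S29lib.H.TJ
import Fermat.Agent.S37lib.ES.CorrDiv

set_option autoImplicit false
set_option linter.unusedSectionVars false
set_option linter.style.haveILetI false

noncomputable section

namespace Fermat.Agent.S15lib.ORD

open AlgebraicCurve ModularCurve Fermat.Agent.S18lib Fermat.Agent.S19lib
open Fermat.Agent.S37lib.HeckeInst Fermat.Agent.S37lib.ES Fermat.Agent.S37lib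

local notation "Qb" => AlgebraicClosure ℚ

variable (N : ℕ) [NeZero N] {ℓ : ℕ} [Fact ℓ.Prime] [NeZero ℓ]
variable (A : ValuationSubring (AlgebraicClosure ℚ))
variable (hℓN : ¬ ℓ ∣ N) (hA : A.LiesOverPrime ℓ)
variable [HasPrincipalDivisors Qb (FBar N)] [HasPrincipalDivisors (kRes A) (FRes A N)]

/-- `T_ℓ` on `J₀(N)`, `ℓ ∤ N` -/
abbrev Tl : JZero N →+ JZero N := Fermat.Agent.S29lib.H.heckeStd N ℓ

/-- the norm `N_α (β f)` -/
abbrev normT (f : FBar N) : FBar N := normAlong (heckeAlphaBar Qb N ℓ) (heckeBetaBar Qb N ℓ f)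

theorem normT_ne_zero {f : FBar N} (hf : f ≠ 0) : normT N (ℓ := ℓ) f ≠ 0 :=
  normAlong_ne_zero _ (finiteAlong_alpha N ℓ) ((map_ne_zero _).2 hf)

/-- **the image of a normal form under `T_ℓ`**, provided the norm is `≡ 1` -/
theorem exists_nform_Tl {x : JZero N} (n : NForm (B.modDatum N A hℓN hA) ℓ x)
    (hν : (B.modDatum N A hℓN hA).O.valuation (normT N (ℓ := ℓ) n.f - 1) < 1) :
    ∃ n' : NForm (B.modDatum N A hℓN hA) ℓ (Tl N (ℓ := ℓ) x), n'.f = normT N (ℓ := ℓ) n.f := by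
  haveI := hasPrincipalDivisors_FB (N * ℓ)
  set E' := Pic0.degZeroCorrespondence (heckeBetaBar Qb N ℓ) (heckeAlphaBar Qb N ℓ)
    (heckeBetaBarIntegral N ℓ) (heckeAlphaBarIntegral N ℓ) (fundamentalIdentityAlong_beta N ℓ) n.E
    with hE'
  refine ⟨{ E := E'
            f := normT N (ℓ := ℓ) n.f
            mk_E := ?_
            f_ne := normT_ne_zero N n.f_ne
            div_f := ?_
            val_lt := hν }, rfl⟩
  · rw [← n.mk_E]
    rfl
  · ext v
    rw [divOf_apply', Finsupp.smul_apply]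
    have hD : ∀ w : Place Qb (FBar N), (ℓ • (n.E : Divisor Qb (FBar N))) w = w.ord n.f := fun w => by
      rw [n.ord_f, Finsupp.smul_apply, nsmul_eq_mul]
    have h1 := correspondence_apply_eq_ord (heckeBetaBar Qb N ℓ) (heckeAlphaBar Qb N ℓ)
      (heckeBetaBarIntegral N ℓ) (heckeAlphaBarIntegral N ℓ) (finiteAlong_alpha N ℓ)
      (normFormulaAlong_alpha N ℓ) n.f_ne hD v
    rw [map_nsmul, Finsupp.smul_apply] at h1
    rw [← h1]
    rfl

/-- `coeffMap` of an injective ring homomorphism kills only `0` -/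
theorem coeffMap_ne_zero' {R S : Type*} [CommRing R] [CommRing S] (φ : R →+* S)
    (hφ : Function.Injective φ) {x : LaurentSeries R} (hx : x ≠ 0) : coeffMap φ x ≠ 0 := by
  intro h
  apply hx
  ext n
  apply hφ
  have := congrArg (fun z => z.coeff n) h
  simpa using this

/-- **the norm of `1 + π g` to first order**: `N_α (β (1 + π₀ g)) = 1 + π₀ G` with `G ∈ O` and
`Ḡ` an `ℓ`-th power. -/
theorem exists_normT_first_order {π₀ : Qb} (hπ0 : π₀ ≠ 0) (hπ1 : A.valuation π₀ < 1) {g : FBar N}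
    (hg : g ∈ (B.modDatum N A hℓN hA).O) :
    ∃ (G : FBar N) (ψb : FRes A N), G ∈ (B.modDatum N A hℓN hA).O ∧
      normT N (ℓ := ℓ) (1 + algebraMap Qb (FBar N) π₀ * g) = 1 + algebraMap Qb (FBar N) π₀ * G ∧
      (B.modDatum N A hℓN hA).redF G = ψb ^ ℓ := by
  letI := algebraAlong (heckeAlphaBar Qb N ℓ)
  haveI : CharP (kRes A) ℓ := Gink.charP_kRes A hA
  have hℓ : ℓ.Prime := Fact.out
  obtain ⟨a, b, hab⟩ := (V.mem_gaussDatum_O N A hℓN hA).1 hg
  have hπA : π₀ ∈ A := (A.valuation_le_one_iff _).1 hπ1.le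
  set πA : A := ⟨π₀, hπA⟩ with hπAdef
  have hπA0 : πA ≠ 0 := fun h => hπ0 (congrArg Subtype.val h)
  have hπAm : πA ∈ IsLocalRing.maximalIdeal A := (A.valuation_lt_one_iff _).2 hπ1
  obtain ⟨c, c₁, hc, hc', hcK, hc₁K⟩ := exists_norm_first_order N A hA hℓN a b πA hπA0 hπAm
  have hbL : V.elemL b ≠ 0 := hab.elemL_ne_zero
  -- `f * b = b + π a`
  have hfb : (1 + algebraMap Qb (FBar N) π₀ * g) * V.elemL b = V.elemL (b + V.constI πA * a) := by
    rw [V.elemL_add, V.elemL_mul, V.elemL_constI, add_mul, one_mul, mul_assoc, hab.2]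
  -- norms
  have hnorm : normT N (ℓ := ℓ) (1 + algebraMap Qb (FBar N) π₀ * g) * V.elemL c
      = V.elemL c + algebraMap Qb (FBar N) π₀ * V.elemL c₁ := by
    have h1 : V.elemL (c + V.constI πA * c₁) = V.elemL c + algebraMap Qb (FBar N) π₀ * V.elemL c₁ := by
      rw [V.elemL_add, V.elemL_mul, V.elemL_constI]
    rw [← h1, hc', hc, ← hfb, map_mul, map_mul]
    rfl
  -- `c̄ ≠ 0`
  have hbK : V.toK A b.1 ≠ 0 := V.toK_ne_zero_of_elemK_ne_zero hab.1
  have hFrsymm : coeffMap ((frobeniusEquiv (kRes A) ℓ).symm : kRes A →+* kRes A) (V.toK A b.1) ≠ 0 :=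
    coeffMap_ne_zero' _ (frobeniusEquiv (kRes A) ℓ).symm.injective hbK
  have hFr : coeffMap (frobenius (kRes A) ℓ) (V.toK A b.1) ≠ 0 :=
    coeffMap_ne_zero' _ (frobenius (kRes A) ℓ).injective hbK
  have hcK0 : V.elemK c ≠ 0 := by
    intro h0
    have h1 : V.toK A c.1 = 0 := congrArg Subtype.val h0
    rw [hcK] at h1
    rcases mul_eq_zero.1 h1 with h2 | h2
    · exact hFrsymm (pow_eq_zero_iff hℓ.ne_zero |>.1 h2)
    · exact hFr h2
  have hcL : V.elemL c ≠ 0 := V.elemL_ne_zero_of_elemK_ne_zero hcK0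
  -- `G`
  have hrep : V.IsRep (V.elemL c₁ / V.elemL c) c₁ c := ⟨hcK0, div_mul_cancel₀ _ hcL⟩
  -- the `ℓ`-th root of the reduction
  set α₁ : FRes A N := ⟨coeffMap ((frobeniusEquiv (kRes A) ℓ).symm : kRes A →+* kRes A)
    (V.toK A a.1), ConjNorm.coeffMap_mem_fullC N _ a.2.2⟩ with hα₁
  set β₁ : FRes A N := ⟨coeffMap ((frobeniusEquiv (kRes A) ℓ).symm : kRes A →+* kRes A)
    (V.toK A b.1), ConjNorm.coeffMap_mem_fullC N _ b.2.2⟩ with hβ₁
  set φ₁ : FRes A N := ⟨coeffMap (frobenius (kRes A) ℓ) (V.toK A b.1),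
    ConjNorm.coeffMap_mem_fullC N _ b.2.2⟩ with hφ₁
  have hβ₁0 : β₁ ≠ 0 := fun h => hFrsymm (congrArg Subtype.val h)
  have hφ₁0 : φ₁ ≠ 0 := fun h => hFr (congrArg Subtype.val h)
  have hc₁K' : V.elemK c₁ = α₁ ^ ℓ * φ₁ := Subtype.ext hc₁K
  have hcK' : V.elemK c = β₁ ^ ℓ * φ₁ := Subtype.ext hcK
  refine ⟨V.elemL c₁ / V.elemL c, α₁ / β₁, ⟨c₁, c, hrep⟩, ?_, ?_⟩
  · have h2 : normT N (ℓ := ℓ) (1 + algebraMap Qb (FBar N) π₀ * g)
        = (V.elemL c + algebraMap Qb (FBar N) π₀ * V.elemL c₁) / V.elemL c := by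
      rw [eq_div_iff hcL, hnorm]
    rw [h2, add_div, div_self hcL, mul_div_assoc]
  · show (V.gaussDatum N A hℓN hA).redF (V.elemL c₁ / V.elemL c) = _
    rw [V.gaussDatum_redF_apply N A hℓN hA hrep, hc₁K', hcK', div_pow,
      mul_div_mul_right _ _ hφ₁0]

theorem normT_one : normT N (ℓ := ℓ) (1 : FBar N) = 1 := by
  letI := algebraAlong (heckeAlphaBar Qb N ℓ)
  show Algebra.norm (FBar N) (heckeBetaBar Qb N ℓ (1 : FBar N)) = 1
  rw [map_one, map_one]

/-- **(O2) the Hecke step**: `T_ℓ` does not make normal forms shallower, and makes them strictly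
deeper below top. -/
theorem exists_nform_Tl_depth {x : JZero N} (n : NForm (B.modDatum N A hℓN hA) ℓ x) :
    (∃ n' : NForm (B.modDatum N A hℓN hA) ℓ (Tl N (ℓ := ℓ) x), n'.depth ≤ n.depth) ∧
    (¬ n.depth ^ (ℓ - 1) ≤ (B.modDatum N A hℓN hA).O.valuation (ℓ : FBar N) ^ ℓ →
      ∃ n' : NForm (B.modDatum N A hℓN hA) ℓ (Tl N (ℓ := ℓ) x), n'.depth < n.depth) := by
  have hℓ : ℓ.Prime := Fact.out
  have hℓ1' : ℓ - 1 ≠ 0 := by have := hℓ.two_le; omega
  by_cases hf1 : n.f - 1 = 0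
  · have hf : n.f = 1 := sub_eq_zero.1 hf1
    have hν : (B.modDatum N A hℓN hA).O.valuation (normT N (ℓ := ℓ) n.f - 1) < 1 := by
      rw [hf, normT_one, sub_self, map_zero]; exact zero_lt_one
    obtain ⟨n', hn'⟩ := exists_nform_Tl N A hℓN hA n hν
    have hd : n'.depth = 0 := by
      rw [NForm.depth, hn', hf, normT_one, sub_self, map_zero]
    refine ⟨⟨n', by rw [hd]; exact zero_le'⟩, fun hcon => ?_⟩
    exfalso
    apply hcon
    rw [NForm.depth, hf1, map_zero, zero_pow hℓ1']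
    exact zero_le'
  · obtain ⟨c0, hc0, w, hw⟩ := (B.modDatum N A hℓN hA).exists_const_mul_isUnit (n.f - 1) hf1
    have hcF : algebraMap Qb (FBar N) c0 ≠ 0 := (map_ne_zero _).2 hc0
    have hfg : n.f = 1 + algebraMap Qb (FBar N) c0⁻¹ * ((w : (B.modDatum N A hℓN hA).O) : FBar N) := by
      rw [← hw, map_inv₀, inv_mul_cancel_left₀ hcF]; ring
    have hdepth : n.depth = (B.modDatum N A hℓN hA).O.valuation (algebraMap Qb (FBar N) c0⁻¹) := by
      have h1 : n.f - 1 = algebraMap Qb (FBar N) c0⁻¹ * ((w : (B.modDatum N A hℓN hA).O) : FBar N) := by rw [hfg]; ring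
      rw [NForm.depth, h1, map_mul, (B.modDatum N A hℓN hA).O.valuation_unit w, mul_one]
    have hπ0 : c0⁻¹ ≠ 0 := inv_ne_zero hc0
    have hπ1 : A.valuation c0⁻¹ < 1 := by
      rw [← val_algebraMap_lt_one_iff (B.modDatum N A hℓN hA), ← hdepth]
      exact n.val_lt
    obtain ⟨G, ψb, hG, hνG, hψ⟩ :=
      exists_normT_first_order N A hℓN hA hπ0 hπ1 (w : (B.modDatum N A hℓN hA).O).2
    rw [← hfg] at hνG
    have hνsub : normT N (ℓ := ℓ) n.f - 1 = algebraMap Qb (FBar N) c0⁻¹ * G := by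
      rw [hνG]; ring
    have hνle : (B.modDatum N A hℓN hA).O.valuation (normT N (ℓ := ℓ) n.f - 1)
        ≤ (B.modDatum N A hℓN hA).O.valuation (algebraMap Qb (FBar N) c0⁻¹) := by
      rw [hνsub, map_mul]
      calc (B.modDatum N A hℓN hA).O.valuation (algebraMap Qb (FBar N) c0⁻¹) * (B.modDatum N A hℓN hA).O.valuation G
          ≤ (B.modDatum N A hℓN hA).O.valuation (algebraMap Qb (FBar N) c0⁻¹) * 1 :=
            mul_le_mul' le_rfl (val_le_of_mem (B.modDatum N A hℓN hA) hG)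
        _ = _ := mul_one _
    have hν : (B.modDatum N A hℓN hA).O.valuation (normT N (ℓ := ℓ) n.f - 1) < 1 :=
      lt_of_le_of_lt hνle (by rw [← hdepth]; exact n.val_lt)
    obtain ⟨n', hn'⟩ := exists_nform_Tl N A hℓN hA n hν
    refine ⟨⟨n', ?_⟩, fun hbelow => ?_⟩
    · rw [NForm.depth, hn', hdepth]
      exact hνle
    · obtain ⟨ϖ, hϖ⟩ := IsAlgClosed.exists_pow_nat_eq (c0⁻¹ : Qb) hℓ.pos
      rw [not_le, hdepth] at hbelow
      obtain ⟨n'', hn''⟩ := NForm.exists_deeper hℓ n' hϖ hπ0 hπ1 hbelow hG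
        (by rw [hn', hνG]) hψ
      exact ⟨n'', by rw [hdepth]; exact hn''⟩

end Fermat.Agent.S15lib.ORD
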