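/-
S15lib / ORD / NForm  (helper5)  — Project E, block ORD, part 2 (normal forms)

`D : RedDatum A F Fk`.  A *normal form* of `x ∈ Pic⁰(F)` (necessarily `ℓ x = 0`, `x ∈ ker red`) is a
pair `(E, f)`, `[E] = x`, `div f = ℓ E`, `f ∈ 1 + 𝔪_O`; its *depth* is `v (f - 1)`.

* `NForm.not_deeper_of_stuck` : **stuck ⇒ optimal**.  If `f = 1 + π₀ g` is below top and
  `ḡ ∉ k + Fk^ℓ`, then no normal form of the same class is strictly deeper than `π₀`.
-/
import Mathlib
import Fermat.Agent.S15lib.ORD.Val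
import Fermat.Agent.S19lib.Geom.Family
import Fermat.Agent.S18lib.Setup.CurveRR

set_option autoImplicit false
set_option linter.unusedSectionVars false

noncomputable section

namespace Fermat.Agent.S15lib.ORD

open AlgebraicCurve Fermat.Agent.LSb Fermat.Agent.S18lib Fermat.Agent.S19lib.C
open Fermat.Agent.S19lib.Geom

variable {L : Type*} [Field L] {A : ValuationSubring L}
variable {F : Type*} [Field F] [Algebra L F]
variable {Fk : Type*} [Field Fk] [Algebra (IsLocalRing.ResidueField A) Fk]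
variable [HasPrincipalDivisors L F] [HasPrincipalDivisors (IsLocalRing.ResidueField A) Fk]

local notation "k" => IsLocalRing.ResidueField A

/-- a nonzero function without zeros and poles on a curve is a constant -/
theorem exists_const_of_ord_eq_zero {K E : Type*} [Field K] [Field E] [Algebra K E] {g : ℕ}
    (hE : IsCurveOfGenus K E g) {y : E} (hy : ∀ P : Place K E, P.ord y = 0) :
    ∃ c : K, algebraMap K E c = y := by
  have h1 : y ∈ riemannRochSpace (0 : Divisor K E) := by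
    rw [mem_riemannRochSpace_iff]
    intro P
    right
    rw [hy P, Finsupp.zero_apply, neg_zero]
  rw [hE.riemannRochSpace_zero] at h1
  exact Algebra.mem_bot.1 h1

/-- a normal form of `x` -/
structure NForm (D : RedDatum A F Fk) (ℓ : ℕ) (x : Pic0 L F) where
  /-- the divisor -/
  E : Divisor.degZero (K := L) (F := F)
  /-- the function -/
  f : F
  mk_E : Pic0.mk E = x
  f_ne : f ≠ 0
  div_f : divOf (K := L) f = ℓ • (E : Divisor L F)
  val_lt : D.O.valuation (f - 1) < 1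

namespace NForm

variable {D : RedDatum A F Fk} {ℓ : ℕ} {x : Pic0 L F} (n : NForm D ℓ x)

/-- the depth of a normal form -/
def depth : D.O.ValueGroup := D.O.valuation (n.f - 1)

theorem f_mem : n.f ∈ D.O := by
  have h1 : n.f - 1 ∈ D.O := mem_of_val_le D n.val_lt.le
  have := D.O.add_mem _ _ h1 D.O.one_mem
  rwa [sub_add_cancel] at this

theorem redF_f : D.redF n.f = 1 := by
  have h1 := D.redF_sub n.f_mem D.O.one_mem
  rw [redF_eq_zero_of_val_lt D n.val_lt, D.redF_one] at h1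
  exact sub_eq_zero.1 h1.symm

theorem ord_f (P : Place L F) : P.ord n.f = ℓ * (n.E : Divisor L F) P := by
  rw [← divOf_apply' (K := L), n.div_f, Finsupp.smul_apply, nsmul_eq_mul]

theorem ord_f_eq_zero {P : Place L F} (h : (n.E : Divisor L F) P = 0) : P.ord n.f = 0 := by
  rw [n.ord_f, h, mul_zero]

theorem discReg_f {Qb : Place k Fk} (h : ∀ P, D.r P = Qb → (n.E : Divisor L F) P = 0) :
    DiscReg D Qb n.f :=
  ⟨n.f_mem, fun P hP => regAt_iff_ord.2 (by rw [n.ord_f_eq_zero (h P hP)])⟩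

/-- `(f - 1) / π₀` is disc-regular where `f` is -/
theorem discReg_sub_one_div {Qb : Place k Fk}
    (h : ∀ P, D.r P = Qb → (n.E : Divisor L F) P = 0) {π₀ : L}
    (hO : (n.f - 1) / algebraMap L F π₀ ∈ D.O) :
    DiscReg D Qb ((n.f - 1) / algebraMap L F π₀) := by
  refine ⟨hO, fun P hP => ?_⟩
  rw [div_eq_mul_inv, ← map_inv₀]
  exact (((n.discReg_f h).2 P hP).sub regAt_one).mul (regAt_const _)

/-- the push-forward of the divisor of a normal form vanishes -/
theorem mapDomain_E (hℓ0 : ℓ ≠ 0) : Finsupp.mapDomain D.r (n.E : Divisor L F) = 0 := by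
  have hred : D.redF n.f ≠ 0 := by rw [n.redF_f]; exact one_ne_zero
  have h1 := D.mapDomain_divOf hred
  rw [n.redF_f, divOf_one, n.div_f, Finsupp.mapDomain_smul] at h1
  ext Q
  have h2 := congrArg (fun E : Divisor k Fk => E Q) h1
  simp only [Finsupp.smul_apply, Finsupp.zero_apply, nsmul_eq_mul] at h2
  rcases mul_eq_zero.1 h2 with h3 | h3
  · exact absurd (by exact_mod_cast h3) hℓ0
  · exact h3

/-- a class with a normal form lies in the kernel of reduction -/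
theorem mem_Kred (n : NForm D ℓ x) (hℓ0 : ℓ ≠ 0) : x ∈ Kred D := by
  rw [← n.mk_E, mem_Kred_mk_iff, n.mapDomain_E hℓ0]
  exact AddSubgroup.zero_mem _

/-- a class with a normal form is killed by `ℓ` -/
theorem nsmul_eq_zero (n : NForm D ℓ x) : ℓ • x = 0 := by
  rw [← n.mk_E]
  have h1 : Pic0.mk (ℓ • n.E) = ℓ • Pic0.mk n.E := QuotientAddGroup.mk_nsmul _ _ _
  rw [← h1, Pic0.mk, QuotientAddGroup.eq_zero_iff, AddSubgroup.mem_addSubgroupOf]
  have h2 : ((ℓ • n.E : Divisor.degZero (K := L) (F := F)) : Divisor L F)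
      = ℓ • (n.E : Divisor L F) := by simp
  rw [h2, ← n.div_f]
  exact divOf_mem_principal n.f_ne

/-- **stuck ⇒ optimal** -/
theorem not_deeper_of_stuck {g : ℕ} (hF : IsCurveOfGenus L F g) (hℓ : ℓ.Prime) [CharP Fk ℓ]
    (hperf : ∀ a : k, ∃ b : k, b ^ ℓ = a) (n n' : NForm D ℓ x) {P₀ : Place L F}
    (hP₀ : ∀ P, D.r P = D.r P₀ →
      (n.E : Divisor L F) P = 0 ∧ (n'.E : Divisor L F) P = 0)
    {π₀ : L} (hπ0 : π₀ ≠ 0) (hπ1 : A.valuation π₀ < 1)
    (hbelow : D.O.valuation (ℓ : F) ^ ℓ < D.O.valuation (algebraMap L F π₀) ^ (ℓ - 1))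
    {gg : F} (hg : gg ∈ D.O) (hfg : n.f = 1 + algebraMap L F π₀ * gg)
    (hstuck : ¬ ∃ (a : k) (ψ : Fk), D.redF gg = algebraMap k Fk a + ψ ^ ℓ) :
    ¬ n'.depth < D.O.valuation (algebraMap L F π₀) := by
  intro hdeep
  have hdeg := hF.deg_eq_one
  have hπF : algebraMap L F π₀ ≠ 0 := (map_ne_zero _).2 hπ0
  have hρpos : 0 < D.O.valuation (algebraMap L F π₀) :=
    zero_lt_iff.2 ((Valuation.ne_zero_iff _).2 hπF)
  -- step 1: `E' - E = div h₀`
  have hsub : (n'.E : Divisor L F) - (n.E : Divisor L F)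
      ∈ Divisor.principal (K := L) (F := F) := by
    have := (QuotientAddGroup.eq_iff_sub_mem
      (N := (Divisor.principal (K := L) (F := F)).addSubgroupOf
        (Divisor.degZero (K := L) (F := F))) (x := n'.E) (y := n.E)).1
      (n'.mk_E.trans n.mk_E.symm)
    exact this
  obtain ⟨h₀, hh₀, hdiv⟩ := mem_principal_iff.1 hsub
  have hordh₀ : ∀ P : Place L F,
      P.ord h₀ = (n'.E : Divisor L F) P - (n.E : Divisor L F) P := by
    intro P
    rw [← divOf_apply' (K := L), ← hdiv, Finsupp.sub_apply]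
  -- step 2: the constant
  have hfh0 : n.f * h₀ ^ ℓ ≠ 0 := mul_ne_zero n.f_ne (pow_ne_zero _ hh₀)
  have hy0 : n'.f / (n.f * h₀ ^ ℓ) ≠ 0 := div_ne_zero n'.f_ne hfh0
  have hyord : ∀ P : Place L F, P.ord (n'.f / (n.f * h₀ ^ ℓ)) = 0 := by
    intro P
    rw [div_eq_mul_inv, P.ord_mul n'.f_ne (inv_ne_zero hfh0), P.ord_inv,
      P.ord_mul n.f_ne (pow_ne_zero _ hh₀), Cech.ord_pow, n'.ord_f, n.ord_f, hordh₀]
    ring
  obtain ⟨γ₀, hγ₀⟩ := exists_const_of_ord_eq_zero hF hyord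
  -- step 3: normalisation at `P₀`
  obtain ⟨hE0, hE0'⟩ := hP₀ P₀ rfl
  have hordP₀ : P₀.ord h₀ = 0 := by rw [hordh₀, hE0, hE0', sub_zero]
  have hregh₀ : RegAt P₀ h₀ := regAt_iff_ord.2 (by rw [hordP₀])
  have hc₀ : ev P₀ h₀ ≠ 0 := (ev_ne_zero_iff_ord (hdeg P₀) hregh₀ hh₀).2 hordP₀
  set c₀ := ev P₀ h₀ with hc₀def
  have hc₀F : algebraMap L F c₀ ≠ 0 := (map_ne_zero _).2 hc₀
  set h := algebraMap L F c₀⁻¹ * h₀ with hhdef
  have hregh : RegAt P₀ h := (regAt_const _).mul hregh₀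
  have hevh : ev P₀ h = 1 := by
    rw [hhdef, ev_mul (hdeg P₀) (regAt_const _) hregh₀, ev_const, ← hc₀def, inv_mul_cancel₀ hc₀]
  have hf'eq : n'.f = algebraMap L F (γ₀ * c₀ ^ ℓ) * n.f * h ^ ℓ := by
    have h1 : n'.f = algebraMap L F γ₀ * (n.f * h₀ ^ ℓ) := by
      rw [hγ₀, div_mul_cancel₀ _ hfh0]
    have h2 : h ^ ℓ = (algebraMap L F c₀ ^ ℓ)⁻¹ * h₀ ^ ℓ := by
      rw [hhdef, mul_pow, map_inv₀, inv_pow]
    have h3 : algebraMap L F c₀ ^ ℓ ≠ 0 := pow_ne_zero _ hc₀F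
    rw [h1, h2, map_mul, map_pow]
    field_simp
  -- step 4: evaluation at `P₀`
  have hdf : DiscReg D (D.r P₀) n.f := n.discReg_f fun P hP => (hP₀ P hP).1
  have hdf' : DiscReg D (D.r P₀) n'.f := n'.discReg_f fun P hP => (hP₀ P hP).2
  have hgg : gg = (n.f - 1) / algebraMap L F π₀ := by
    rw [hfg, add_sub_cancel_left, mul_div_cancel_left₀ _ hπF]
  have hdg : DiscReg D (D.r P₀) gg := by
    rw [hgg]
    exact n.discReg_sub_one_div (fun P hP => (hP₀ P hP).1) (by rw [← hgg]; exact hg)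
  have hg'lt : D.O.valuation ((n'.f - 1) / algebraMap L F π₀) < 1 := by
    rw [map_div₀]
    exact (div_lt_one₀ hρpos).2 hdeep
  have hdg' : DiscReg D (D.r P₀) ((n'.f - 1) / algebraMap L F π₀) :=
    n'.discReg_sub_one_div (fun P hP => (hP₀ P hP).2) (mem_of_val_le D hg'lt.le)
  have haA : ev P₀ gg ∈ A := hdg.ev_mem rfl (hdeg P₀)
  have hbA : ev P₀ ((n'.f - 1) / algebraMap L F π₀) ∈ A := hdg'.ev_mem rfl (hdeg P₀)
  have hevf : ev P₀ n.f = 1 + π₀ * ev P₀ gg := by
    conv_lhs => rw [hfg]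
    rw [ev_add (hdeg P₀) regAt_one ((regAt_const _).mul (hdg.2 P₀ rfl)), ev_one,
      ev_mul (hdeg P₀) (regAt_const _) (hdg.2 P₀ rfl), ev_const]
  have hf'g' : n'.f = 1 + algebraMap L F π₀ * ((n'.f - 1) / algebraMap L F π₀) := by
    rw [mul_div_cancel₀ _ hπF]; ring
  have hevf' : ev P₀ n'.f = 1 + π₀ * ev P₀ ((n'.f - 1) / algebraMap L F π₀) := by
    conv_lhs => rw [hf'g']
    rw [ev_add (hdeg P₀) regAt_one ((regAt_const _).mul (hdg'.2 P₀ rfl)), ev_one,
      ev_mul (hdeg P₀) (regAt_const _) (hdg'.2 P₀ rfl), ev_const]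
  have hevrel : ev P₀ n'.f = γ₀ * c₀ ^ ℓ * ev P₀ n.f := by
    conv_lhs => rw [hf'eq]
    rw [ev_mul (hdeg P₀) ((regAt_const _).mul (hdf.2 P₀ rfl)) (hregh.pow ℓ),
      ev_mul (hdeg P₀) (regAt_const _) (hdf.2 P₀ rfl), ev_const, ev_pow (hdeg P₀) hregh, hevh,
      one_pow, mul_one]
  -- step 5: the constant `c₁`
  set a := ev P₀ gg with hadef
  set b := ev P₀ ((n'.f - 1) / algebraMap L F π₀) with hbdef
  have hπa : A.valuation (π₀ * a) < 1 := by
    rw [map_mul]
    calc A.valuation π₀ * A.valuation a ≤ A.valuation π₀ * 1 :=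
          mul_le_mul' le_rfl ((A.valuation_le_one_iff _).2 haA)
      _ = A.valuation π₀ := mul_one _
      _ < 1 := hπ1
  have hunit : A.valuation (1 + π₀ * a) = 1 := Valuation.map_one_add_of_lt _ hπa
  have hden : 1 + π₀ * a ≠ 0 := by
    intro h0
    rw [h0, map_zero] at hunit
    exact zero_ne_one hunit
  have hc₁A : (b - a) / (1 + π₀ * a) ∈ A := by
    rw [← A.valuation_le_one_iff, map_div₀, hunit, div_one]
    exact (A.valuation_le_one_iff _).2 (sub_mem hbA haA)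
  have hγeq : γ₀ * c₀ ^ ℓ = 1 + π₀ * ((b - a) / (1 + π₀ * a)) := by
    have h1 : γ₀ * c₀ ^ ℓ * (1 + π₀ * a) = 1 + π₀ * b := by
      rw [← hevf, ← hevrel, hevf']
    field_simp
    linear_combination h1
  -- step 6: the algebraic core
  apply hstuck
  refine exists_eq_add_pow_of_deeper D hℓ hperf hπ0 hπ1 hbelow (h := h) hg hc₁A ?_ hdeep
  rw [← hγeq, ← hfg]
  exact hf'eq

end NForm

end Fermat.Agent.S15lib.ORD
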