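/-
S15lib / ORD / Canon  (helper5)  — Project E, block ORD, part 3 (canonical normal forms)

For an admissible chart family `a : Fam D S g` and `x = Θ_a(u)` with `ℓ x = 0`:

* `exists_canon` : a normal form `(Dv u - E_a, f)` of `x` normalised by `f(P₀) = 1`;
* `canon_stuck` : if `f ≠ 1`, `f = 1 + π₀ g` with `g` a unit of `O`, then `ḡ ∉ k + Fk^ℓ`
  (because `L(Σ Qb_i) = k`);
* `isTop_or_exists_optimal` : every `x ∈ ker red` with `ℓ x = 0` is at top depth or has a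
  depth-optimal normal form.
-/
import Mathlib
import Fermat.Agent.S15lib.ORD.NForm

set_option autoImplicit false
set_option linter.unusedSectionVars false

noncomputable section

namespace Fermat.Agent.S15lib.ORD

open AlgebraicCurve Fermat.Agent.LSb Fermat.Agent.S18lib Fermat.Agent.S19lib.C
open Fermat.Agent.S19lib.Geom Fermat.Agent.S19lib

variable {L : Type*} [Field L] {A : ValuationSubring L}
variable {F : Type*} [Field F] [Algebra L F]
variable {Fk : Type*} [Field Fk] [Algebra (IsLocalRing.ResidueField A) Fk]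
variable [HasPrincipalDivisors L F] [HasPrincipalDivisors (IsLocalRing.ResidueField A) Fk]

local notation "k" => IsLocalRing.ResidueField A

variable {G : Type*} [Group G] {D : RedDatum A F Fk} {S : SymData D G} {g : ℕ}

/-! ### supports of the divisors of a family -/

theorem Dv_nonneg (a : Fam D S g) (u : Fin g → L) : 0 ≤ a.Dv u := by
  classical
  rw [Fam.Dv]
  refine Finset.sum_nonneg fun i _ => ?_
  intro P
  rw [Finsupp.zero_apply, Finsupp.single_apply]
  split_ifs <;> norm_num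

theorem E_nonneg (a : Fam D S g) : 0 ≤ a.E := by
  rw [← a.Dv_zero]; exact Dv_nonneg a 0

theorem Dv_apply_eq_zero (a : Fam D S g) (u : Fin g → L) {P : Place L F}
    (h : ∀ i, D.r P ≠ a.Qb i) : a.Dv u P = 0 := by
  classical
  rw [Fam.Dv, Finsupp.finset_sum_apply]
  refine Finset.sum_eq_zero fun i _ => ?_
  rw [Finsupp.single_apply, if_neg]
  intro hP
  exact h i (by rw [← hP, (a.ch i).r_pt])

theorem E_apply_eq_zero (a : Fam D S g) {P : Place L F}
    (h : ∀ i, D.r P ≠ a.Qb i) : a.E P = 0 := by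
  rw [← a.Dv_zero]; exact Dv_apply_eq_zero a 0 h

/-- the canonical representative -/
def canonE (a : Fam D S g) (u : Fin g → L) : Divisor.degZero (K := L) (F := F) :=
  ⟨a.Dv u - a.E, a.sub_mem_degZero u⟩

theorem mk_canonE (a : Fam D S g) (u : Fin g → L) : Pic0.mk (canonE a u) = a.Θ u := rfl

theorem canonE_apply_eq_zero (a : Fam D S g) (u : Fin g → L) {P : Place L F}
    (h : ∀ i, D.r P ≠ a.Qb i) : (canonE a u : Divisor L F) P = 0 := by
  show (a.Dv u - a.E) P = 0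
  rw [Finsupp.sub_apply, Dv_apply_eq_zero a u h, E_apply_eq_zero a h, sub_zero]

theorem mapDomain_canonE (a : Fam D S g) (u : Fin g → L) :
    Finsupp.mapDomain D.r (canonE a u : Divisor L F) = 0 := by
  show Finsupp.mapDomain D.r (a.Dv u - a.E) = 0
  rw [Finsupp.mapDomain_sub, a.mapDomain_Dv, a.mapDomain_E, sub_self]

/-! ### a function whose divisor is killed by `r_*` and which takes the value `1` at a point of a
disc off the divisor is `≡ 1` -/

/-- if `div f = ℓ E`, `r_* E = 0`, `E` vanishes on the disc of `P₀` and `f(P₀) = 1`,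
then `f ∈ 1 + 𝔪_O` -/
theorem val_sub_one_lt_one {g' : ℕ} (hF : IsCurveOfGenus L F g') (hFk : IsCurveOfGenus k Fk g')
    {E : Divisor L F} {ℓ : ℕ} {f : F} (hf : f ≠ 0) (hdiv : divOf (K := L) f = ℓ • E)
    (hrE : Finsupp.mapDomain D.r E = 0) {P₀ : Place L F}
    (hP₀ : ∀ P, D.r P = D.r P₀ → E P = 0) (hev : ev P₀ f = 1) :
    D.O.valuation (f - 1) < 1 := by
  have hdeg := hF.deg_eq_one
  obtain ⟨c', hc', u', hu'⟩ := D.exists_const_mul_isUnit f hf
  obtain ⟨U, hU⟩ : ∃ U : F, U = ((u' : D.O) : F) := ⟨_, rfl⟩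
  rw [← hU] at hu'
  have hUO : U ∈ D.O := hU ▸ (u' : D.O).2
  have hUred : D.redF U ≠ 0 := D.redF_ne_zero_iff.2 ⟨u', hU.symm⟩
  have hUdiv : divOf (K := L) U = ℓ • E := by
    rw [← hu', divOf_algebraMap_mul hc', hdiv]
  -- the reduction of `U` is a constant
  have hdivred : divOf (K := k) (D.redF U) = 0 := by
    rw [← D.mapDomain_divOf hUred, hUdiv, Finsupp.mapDomain_smul, hrE, smul_zero]
  obtain ⟨d, hd⟩ := exists_const_of_ord_eq_zero hFk (y := D.redF U) (fun Q => by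
    rw [← divOf_apply' (K := k), hdivred, Finsupp.zero_apply])
  -- `U` is disc-regular at `P₀`
  have hUdisc : DiscReg D (D.r P₀) U := by
    refine ⟨hUO, fun P hP => regAt_iff_ord.2 ?_⟩
    rw [← divOf_apply' (K := L), hUdiv, Finsupp.smul_apply, hP₀ P hP, smul_zero]
  have hfreg : RegAt P₀ f := by
    rw [regAt_iff_ord, ← divOf_apply' (K := L), hdiv, Finsupp.smul_apply, hP₀ P₀ rfl, smul_zero]
  have hevU : ev P₀ U = c' := by
    rw [← hu', ev_mul (hdeg P₀) (regAt_const _) hfreg, ev_const, hev, mul_one]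
  have hc'A : c' ∈ A := hevU ▸ hUdisc.ev_mem rfl (hdeg P₀)
  have hres : IsLocalRing.residue A ⟨c', hc'A⟩ = d := by
    have h1 := hUdisc.residue_ev rfl (hdeg P₀)
    rw [← hd, ev_const] at h1
    rw [← h1]
    congr 1
    exact Subtype.ext hevU.symm
  have hd0 : d ≠ 0 := by
    rintro rfl
    rw [map_zero] at hd
    exact hUred hd.symm
  -- `c'` is a unit of `A`
  have hc'unit : IsUnit (⟨c', hc'A⟩ : A) := by
    rw [← IsLocalRing.residue_ne_zero_iff_isUnit, hres]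
    exact hd0
  obtain ⟨w, hw⟩ := hc'unit
  have hwinv : ((w⁻¹ : Aˣ) : A) * ⟨c', hc'A⟩ = 1 := by rw [← hw]; exact w.inv_mul
  have hc'F : algebraMap L F c' ≠ 0 := (map_ne_zero _).2 hc'
  have hfU : f = algebraMap L F (((w⁻¹ : Aˣ) : A) : L) * U := by
    have h1 : ((((w⁻¹ : Aˣ) : A) : L)) * c' = 1 := by
      have := congrArg (fun z : A => (z : L)) hwinv
      simpa using this
    rw [← hu', ← mul_assoc, ← map_mul, h1, map_one, one_mul]
  have hfO : f ∈ D.O := by rw [hfU]; exact D.smul_mem _ hUO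
  have hfred : D.redF f = 1 := by
    rw [hfU, D.redF_smul _ hUO, ← hd, ← hres, Algebra.smul_def, ← map_mul, ← map_mul, hwinv,
      map_one, map_one]
  apply val_lt_of_redF_eq_zero D (D.O.sub_mem hfO D.O.one_mem)
  rw [D.redF_sub hfO D.O.one_mem, hfred, D.redF_one, sub_self]

/-- **existence of the canonical normal form** -/
theorem exists_canon {g' : ℕ} (hF : IsCurveOfGenus L F g') (hFk : IsCurveOfGenus k Fk g')
    (a : Fam D S g) {u : Fin g → L} {ℓ : ℕ} (hℓx : ℓ • a.Θ u = 0) {P₀ : Place L F}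
    (hP₀ : ∀ i, D.r P₀ ≠ a.Qb i) :
    ∃ n : NForm D ℓ (a.Θ u), n.E = canonE a u ∧ ev P₀ n.f = 1 := by
  have hdeg := hF.deg_eq_one
  have h1 : ℓ • (canonE a u : Divisor L F) ∈ Divisor.principal (K := L) (F := F) := by
    have h2 : Pic0.mk (ℓ • canonE a u) = 0 := by
      rw [← hℓx, ← mk_canonE]
      exact QuotientAddGroup.mk_nsmul _ _ _
    have h3 := (QuotientAddGroup.eq_zero_iff (ℓ • canonE a u)).1 h2
    rw [AddSubgroup.mem_addSubgroupOf] at h3
    simpa using h3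
  obtain ⟨f₀, hf₀, hdiv₀⟩ := mem_principal_iff.1 h1
  have hE0 : ∀ P, D.r P = D.r P₀ → (canonE a u : Divisor L F) P = 0 := fun P hP =>
    canonE_apply_eq_zero a u fun i => by rw [hP]; exact hP₀ i
  have hord₀ : P₀.ord f₀ = 0 := by
    rw [← divOf_apply' (K := L), ← hdiv₀, Finsupp.smul_apply, hE0 P₀ rfl, smul_zero]
  have hreg₀ : RegAt P₀ f₀ := regAt_iff_ord.2 (by rw [hord₀])
  have hc₀ : ev P₀ f₀ ≠ 0 := (ev_ne_zero_iff_ord (hdeg P₀) hreg₀ hf₀).2 hord₀
  set f := algebraMap L F (ev P₀ f₀)⁻¹ * f₀ with hfdef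
  have hf : f ≠ 0 := mul_ne_zero ((map_ne_zero _).2 (inv_ne_zero hc₀)) hf₀
  have hdiv : divOf (K := L) f = ℓ • (canonE a u : Divisor L F) := by
    rw [hfdef, divOf_algebraMap_mul (inv_ne_zero hc₀), hdiv₀]
  have hev : ev P₀ f = 1 := by
    rw [hfdef, ev_mul (hdeg P₀) (regAt_const _) hreg₀, ev_const, inv_mul_cancel₀ hc₀]
  exact ⟨⟨canonE a u, f, mk_canonE a u, hf, hdiv,
    val_sub_one_lt_one hF hFk hf hdiv (mapDomain_canonE a u) hE0 hev⟩, rfl, hev⟩

/-- **the canonical normal form is stuck**: `ḡ ∉ k + Fk^ℓ` -/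
theorem canon_stuck {g' : ℕ} (hF : IsCurveOfGenus L F g') {ℓ : ℕ} (hℓ : ℓ.Prime)
    (a : Fam D S g) {u : Fin g → L} (n : NForm D ℓ (a.Θ u)) (hnE : n.E = canonE a u)
    {P₀ : Place L F} (hP₀ : ∀ i, D.r P₀ ≠ a.Qb i) (hev : ev P₀ n.f = 1)
    {π₀ : L} (hπ0 : π₀ ≠ 0) {gg : F} (hggred : D.redF gg ≠ 0)
    (hfg : n.f = 1 + algebraMap L F π₀ * gg) :
    ¬ ∃ (a₀ : k) (ψ : Fk), D.redF gg = algebraMap k Fk a₀ + ψ ^ ℓ := by
  rintro ⟨a₀, ψ, hψ⟩
  have hdeg := hF.deg_eq_one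
  have hℓpos : (0 : ℤ) < ℓ := by exact_mod_cast hℓ.pos
  have hπF : algebraMap L F π₀ ≠ 0 := (map_ne_zero _).2 hπ0
  have hggO : gg ∈ D.O := D.mem_of_redF_ne_zero hggred
  have hgg : gg = π₀⁻¹ • (n.f - 1) := by
    rw [hfg, add_sub_cancel_left, Algebra.smul_def, map_inv₀, inv_mul_cancel_left₀ hπF]
  -- (i) `gg ∈ L(ℓ E_a)`
  have hEnn : ∀ P : Place L F, 0 ≤ (ℓ • a.E) P := fun P => by
    rw [Finsupp.smul_apply, nsmul_eq_mul]
    exact mul_nonneg hℓpos.le (Finsupp.le_def.1 (E_nonneg a) P)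
  have hfrr : n.f ∈ riemannRochSpace (ℓ • a.E) := by
    rw [Cech.mem_rr_of_ne n.f_ne]
    intro P
    rw [n.ord_f, hnE, Finsupp.smul_apply, nsmul_eq_mul]
    show -((ℓ : ℤ) * a.E P) ≤ (ℓ : ℤ) * (a.Dv u - a.E) P
    rw [Finsupp.sub_apply]
    have h1 := Finsupp.le_def.1 (Dv_nonneg a u) P
    rw [Finsupp.zero_apply] at h1
    nlinarith
  have hggrr : gg ∈ riemannRochSpace (ℓ • a.E) := by
    rw [hgg]
    exact Submodule.smul_mem _ _ (Submodule.sub_mem _ hfrr (Cech.one_mem_rr hEnn))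
  -- (ii) its reduction lies in `L(ℓ Σ Qb_i)`
  have hredrr : D.redF gg ∈ riemannRochSpace (ℓ • ∑ i, B.pt (a.Qb i)) := by
    have := D.redF_mem_riemannRochSpace hggrr hggO
    rwa [Finsupp.mapDomain_smul, a.mapDomain_E] at this
  have hSnn : ∀ Q : Place k Fk, 0 ≤ (∑ i, B.pt (a.Qb i)) Q := fun Q => by
    classical
    rw [Finsupp.finset_sum_apply]
    refine Finset.sum_nonneg fun i _ => ?_
    rw [Finsupp.single_apply]
    split_ifs <;> norm_num
  have hlSnn : ∀ Q : Place k Fk, 0 ≤ (ℓ • ∑ i, B.pt (a.Qb i)) Q := fun Q => by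
    rw [Finsupp.smul_apply, nsmul_eq_mul]
    exact mul_nonneg hℓpos.le (hSnn Q)
  -- (iii) `ψ ∈ L(Σ Qb_i)`
  have hψℓrr : ψ ^ ℓ ∈ riemannRochSpace (ℓ • ∑ i, B.pt (a.Qb i)) := by
    have h1 : ψ ^ ℓ = D.redF gg - algebraMap k Fk a₀ := by rw [hψ]; ring
    rw [h1]
    exact Submodule.sub_mem _ hredrr (Cech.const_mem_rr hlSnn a₀)
  have hψrr : ψ ∈ riemannRochSpace (∑ i, B.pt (a.Qb i)) := by
    rw [Cech.mem_rr_iff] at hψℓrr ⊢
    intro Q
    rcases hψℓrr Q with h0 | h1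
    · exact Or.inl (pow_eq_zero_iff hℓ.ne_zero |>.1 h0)
    · right
      rw [Cech.ord_pow, Finsupp.smul_apply, nsmul_eq_mul] at h1
      by_contra hcon
      rw [not_le] at hcon
      nlinarith
  -- (iv) `ψ` is a constant
  have h1rr : (1 : Fk) ∈ riemannRochSpace (∑ i, B.pt (a.Qb i)) := Cech.one_mem_rr hSnn
  have hne1 : (⟨1, h1rr⟩ : riemannRochSpace (∑ i, B.pt (a.Qb i))) ≠ 0 := by
    intro h0
    exact one_ne_zero (congrArg Subtype.val h0)
  obtain ⟨c, hc⟩ := (finrank_eq_one_iff_of_nonzero' _ hne1).1 a.nonspecial ⟨ψ, hψrr⟩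
  have hψc : ψ = algebraMap k Fk c := by
    have := congrArg Subtype.val hc
    simp only [Submodule.coe_smul] at this
    rw [← this, Algebra.smul_def, mul_one]
  -- (v) evaluation at `P₀`
  have hredconst : D.redF gg = algebraMap k Fk (a₀ + c ^ ℓ) := by
    rw [hψ, hψc, map_add, map_pow]
  have hdisc : DiscReg D (D.r P₀) gg := by
    refine ⟨hggO, fun P hP => ?_⟩
    rw [hgg, Algebra.smul_def]
    refine (regAt_const _).mul (RegAt.sub ?_ regAt_one)
    rw [regAt_iff_ord, n.ord_f_eq_zero]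
    rw [hnE]
    exact canonE_apply_eq_zero a u fun i => by rw [hP]; exact hP₀ i
  have hevgg : ev P₀ gg = 0 := by
    have h1 : ev P₀ n.f = 1 + π₀ * ev P₀ gg := by
      conv_lhs => rw [hfg]
      rw [ev_add (hdeg P₀) regAt_one ((regAt_const _).mul (hdisc.2 P₀ rfl)), ev_one,
        ev_mul (hdeg P₀) (regAt_const _) (hdisc.2 P₀ rfl), ev_const]
    rw [hev] at h1
    have h2 : π₀ * ev P₀ gg = 0 := by linear_combination -h1
    exact (mul_eq_zero.1 h2).resolve_left hπ0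
  have hres := hdisc.residue_ev rfl (hdeg P₀)
  rw [hredconst, ev_const] at hres
  have hzero : (⟨ev P₀ gg, hdisc.ev_mem rfl (hdeg P₀)⟩ : A) = 0 := Subtype.ext hevgg
  rw [hzero, map_zero] at hres
  apply hggred
  rw [hredconst, ← hres, map_zero]

/-- `x` is at *top depth*: it has a normal form `f ≡ 1 mod (ζ_ℓ - 1)^ℓ` -/
def IsTop (D : RedDatum A F Fk) (ℓ : ℕ) (x : Pic0 L F) : Prop :=
  ∃ n : NForm D ℓ x, n.depth ^ (ℓ - 1) ≤ D.O.valuation (ℓ : F) ^ ℓ

/-- **(O1)** every `ℓ`-torsion point of the kernel of reduction is at top depth or has a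
depth-optimal normal form. -/
theorem isTop_or_exists_optimal {g' : ℕ} (hF : IsCurveOfGenus L F g')
    (hFk : IsCurveOfGenus k Fk g') {ℓ : ℕ} (hℓ : ℓ.Prime) [CharP Fk ℓ]
    (hperf : ∀ a : k, ∃ b : k, b ^ ℓ = a) (a : Fam D S g) (hker : KerStmt D S g)
    (hlift : ∀ Q : Place k Fk, ∃ P : Place L F, D.r P = Q)
    {x : Pic0 L F} (hx : x ∈ Kred D) (hℓx : ℓ • x = 0) :
    IsTop D ℓ x ∨ ∃ n : NForm D ℓ x, ∀ n' : NForm D ℓ x, n.depth ≤ n'.depth := by
  classical
  haveI := hFk.infinite_places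
  obtain ⟨u, -, rfl⟩ := (hker a).1 x hx
  obtain ⟨Q₀, hQ₀⟩ := Infinite.exists_notMem_finset (Finset.univ.image a.Qb)
  obtain ⟨P₀, hP₀⟩ := hlift Q₀
  have hP₀' : ∀ i, D.r P₀ ≠ a.Qb i := fun i h =>
    hQ₀ (Finset.mem_image.2 ⟨i, Finset.mem_univ _, by rw [← h, hP₀]⟩)
  obtain ⟨n, hnE, hev⟩ := exists_canon hF hFk a hℓx hP₀'
  have hℓ1' : ℓ - 1 ≠ 0 := by have := hℓ.two_le; omega
  by_cases hf1 : n.f - 1 = 0
  · left
    refine ⟨n, ?_⟩
    rw [NForm.depth, hf1, map_zero, zero_pow hℓ1']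
    exact zero_le'
  · obtain ⟨c, hc, w, hw⟩ := D.exists_const_mul_isUnit (n.f - 1) hf1
    have hcF : algebraMap L F c ≠ 0 := (map_ne_zero _).2 hc
    have hfg : n.f = 1 + algebraMap L F c⁻¹ * ((w : D.O) : F) := by
      rw [← hw, map_inv₀, inv_mul_cancel_left₀ hcF]; ring
    have hggred : D.redF ((w : D.O) : F) ≠ 0 := D.redF_ne_zero_iff.2 ⟨w, rfl⟩
    have hdepth : n.depth = D.O.valuation (algebraMap L F c⁻¹) := by
      have h1 : n.f - 1 = algebraMap L F c⁻¹ * ((w : D.O) : F) := by rw [hfg]; ring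
      rw [NForm.depth, h1, map_mul, D.O.valuation_unit w, mul_one]
    have hπ0 : c⁻¹ ≠ 0 := inv_ne_zero hc
    have hπ1 : A.valuation c⁻¹ < 1 := by
      rw [← val_algebraMap_lt_one_iff D, ← hdepth]
      exact n.val_lt
    by_cases htop : n.depth ^ (ℓ - 1) ≤ D.O.valuation (ℓ : F) ^ ℓ
    · exact Or.inl ⟨n, htop⟩
    · right
      refine ⟨n, fun n' => ?_⟩
      by_contra hlt
      rw [not_le] at hlt
      obtain ⟨Q₁, hQ₁⟩ := Infinite.exists_notMem_finset
        (Finset.univ.image a.Qb ∪ (n'.E : Divisor L F).support.image D.r)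
      obtain ⟨P₁, hP₁⟩ := hlift Q₁
      rw [not_le, hdepth] at htop
      refine NForm.not_deeper_of_stuck hF hℓ hperf n n' (P₀ := P₁) ?_ hπ0 hπ1 htop
        (w : D.O).2 hfg (canon_stuck hF hℓ a n hnE hP₀' hev hπ0 hggred hfg) ?_
      · intro P hP
        constructor
        · rw [hnE]
          refine canonE_apply_eq_zero a u fun i h => ?_
          exact hQ₁ (Finset.mem_union_left _
            (Finset.mem_image.2 ⟨i, Finset.mem_univ _, by rw [← h, hP, hP₁]⟩))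
        · by_contra hne
          exact hQ₁ (Finset.mem_union_right _
            (Finset.mem_image.2 ⟨P, Finsupp.mem_support_iff.2 hne, by rw [hP, hP₁]⟩))
      · rw [← hdepth]; exact hlt

end Fermat.Agent.S15lib.ORD
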