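/-
S15lib / ORD / Top  (helper6)  — Project E, block ORD, part (O3):  TOP × TOP ⇒ Weil pairing trivial

`weilPair_eq_one_of_isTop` : two `ℓ`-torsion classes of the kernel of reduction which are both at
top depth (normal forms `f ≡ 1 mod (ζ_ℓ - 1)^ℓ`) have trivial Weil pairing.

Proof (helper5's plan #h5-ORD3): take disjoint chart families `a`, `b`, canonical forms
`(Dv_a u - E_a, f_x)`, `(Dv_b v - E_b, f_y)`, `f_x = 1 + π_x g_x`, `f_y = 1 + π_y g_y`, both at
top depth (`Top/CanonTop`).  Then `|v_j|^ℓ ≤ |π_y|`, `|u_i|^ℓ ≤ |π_x|` (`Top/Disc`),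
`f_x(E_y) ∈ 1 + π_x v A`, `f_y(E_x) ∈ 1 + π_y u A`, so `ε = e_ℓ(x, y)` satisfies
`|ε - 1|^((ℓ-1)ℓ) ≤ |ℓ|^(ℓ²+ℓ) < |ℓ|^ℓ`, which forces `ε = 1` (`Top/ValU`).
-/
import Mathlib
import Fermat.Agent.S15lib.ORD.Top.Disc
import Fermat.Agent.S15lib.ORD.Top.CanonTop
import Fermat.Agent.S15lib.Weil.Pairing

set_option autoImplicit false
set_option linter.unusedSectionVars false

noncomputable section

namespace Fermat.Agent.S15lib.ORD

open AlgebraicCurve Fermat.Agent.LSb Fermat.Agent.S18lib Fermat.Agent.S19lib.C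
open Fermat.Agent.S19lib.Geom Fermat.Agent.S19lib

namespace Top

/-! ### bridge between `Weil.val` and `S19lib.C.ev`, values on sums of points -/

section Bridge

variable {K E : Type*} [Field K] [Field E] [Algebra K E] [Weil.RatPlaces K E]

theorem val_eq_ev {P : Place K E} {f : E} (hf : RegAt P f) : Weil.val P f = ev P f := by
  rw [Weil.val_eq_iff P hf]
  have h := hasValueAt_ev (Weil.RatPlaces.deg_eq_one P) hf
  rwa [hasValueAt_iff] at h

theorem disj_sum_single {ι : Type*} (s : Finset ι) (P : ι → Place K E) {f : E}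
    (h : ∀ i ∈ s, (P i).ord f = 0) :
    Weil.Disj f (∑ i ∈ s, Finsupp.single (P i) (1 : ℤ)) := by
  classical
  induction s using Finset.induction_on with
  | empty => rw [Finset.sum_empty]; exact Weil.Disj.zero_right f
  | insert a s ha ih =>
    rw [Finset.sum_insert ha]
    exact (Weil.Disj.single (h a (Finset.mem_insert_self a s)) 1).add_right
      (ih fun i hi => h i (Finset.mem_insert_of_mem hi))

theorem evalDiv_sum_single {ι : Type*} (s : Finset ι) (P : ι → Place K E) {f : E} (hf : f ≠ 0)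
    (h : ∀ i ∈ s, (P i).ord f = 0) :
    Weil.evalDiv f (∑ i ∈ s, Finsupp.single (P i) (1 : ℤ)) = ∏ i ∈ s, ev (P i) f := by
  classical
  induction s using Finset.induction_on with
  | empty => simp
  | insert a s ha ih =>
    have ha0 := h a (Finset.mem_insert_self a s)
    rw [Finset.sum_insert ha, Finset.prod_insert ha,
      Weil.evalDiv_add_right hf (Weil.Disj.single ha0 1)
        (disj_sum_single s P fun i hi => h i (Finset.mem_insert_of_mem hi)),
      ih fun i hi => h i (Finset.mem_insert_of_mem hi), Weil.evalDiv_single, zpow_one,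
      val_eq_ev (regAt_iff_ord.2 (by rw [ha0]))]

end Bridge

variable {L : Type*} [Field L] {A : ValuationSubring L}
variable {F : Type*} [Field F] [Algebra L F]
variable {Fk : Type*} [Field Fk] [Algebra (IsLocalRing.ResidueField A) Fk]
variable [HasPrincipalDivisors L F] [HasPrincipalDivisors (IsLocalRing.ResidueField A) Fk]

local notation "k" => IsLocalRing.ResidueField A

variable {G : Type*} [Group G] {D : RedDatum A F Fk} {S : SymData D G} {g : ℕ}

/-- the canonical divisor of `a` vanishes on the discs of a disjoint family -/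
theorem canonE_apply_eq_zero_of_disjoint {a b : Fam D S g} (hab : a.Disjoint b) (u : Fin g → L)
    (j : Fin g) {P : Place L F} (hP : D.r P = b.Qb j) : (canonE a u : Divisor L F) P = 0 :=
  canonE_apply_eq_zero a u fun i h => hab i j (by rw [← h, hP])

/-- **the value of a top form on the canonical divisor of a disjoint family** lies in
`1 + π v A` -/
theorem val_evalDiv_canonE_sub_one_le [Weil.RatPlaces L F] {ℓ : ℕ} {a b : Fam D S g}
    (hab : a.Disjoint b) {u v : Fin g → L} (hv : v ∈ PolyDisc A (Fin g))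
    (n : NForm D ℓ (a.Θ u)) (hnE : n.E = canonE a u) {π : L} (hπ0 : π ≠ 0)
    (hπ1 : A.valuation π < 1) {gg : F} (hgg : gg ∈ D.O)
    (hfg : n.f = 1 + algebraMap L F π * gg) {ρ : A.ValueGroup} (hρ : ρ ≤ 1)
    (hρv : ∀ j, A.valuation (π * v j) ≤ ρ) :
    A.valuation (Weil.evalDiv n.f (canonE b v : Divisor L F) - 1) ≤ ρ := by
  classical
  have hπF : algebraMap L F π ≠ 0 := (map_ne_zero _).2 hπ0
  have hE : ∀ j, ∀ P : Place L F, D.r P = b.Qb j → (n.E : Divisor L F) P = 0 := fun j P hP => by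
    rw [hnE]; exact canonE_apply_eq_zero_of_disjoint hab u j hP
  have hggeq : gg = (n.f - 1) / algebraMap L F π := by
    rw [hfg, add_sub_cancel_left, mul_div_cancel_left₀ _ hπF]
  have hggdisc : ∀ j, DiscReg D (b.Qb j) gg := fun j => by
    rw [hggeq]
    exact n.discReg_sub_one_div (hE j) (by rw [← hggeq]; exact hgg)
  have hord : ∀ j, ∀ P : Place L F, D.r P = b.Qb j → P.ord n.f = 0 := fun j P hP =>
    n.ord_f_eq_zero (hE j P hP)
  have hordpt : ∀ j ∈ (Finset.univ : Finset (Fin g)), ((b.ch j).pt (v j)).ord n.f = 0 :=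
    fun j _ => hord j _ ((b.ch j).r_pt _)
  have hordP0 : ∀ j ∈ (Finset.univ : Finset (Fin g)), ((b.ch j).P0).ord n.f = 0 :=
    fun j _ => hord j _ (b.ch j).r_P0
  have h1 : Weil.evalDiv n.f (canonE b v : Divisor L F)
      = ∏ j, (ev ((b.ch j).pt (v j)) n.f / ev (b.ch j).P0 n.f) := by
    show Weil.evalDiv n.f (b.Dv v - b.E) = _
    rw [Fam.Dv, Fam.E, Weil.evalDiv_sub_right n.f_ne (disj_sum_single _ _ hordpt)
      (disj_sum_single _ _ hordP0), evalDiv_sum_single _ _ n.f_ne hordpt,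
      evalDiv_sum_single _ _ n.f_ne hordP0, Finset.prod_div_distrib]
  rw [h1]
  refine val_prod_sub_one_le A.valuation _ _ hρ fun j _ => ?_
  exact (val_ev_ratio_sub_one_le (b.ch j) (hggdisc j) hπ1 hfg (hv j)).trans (hρv j)

end Top

variable {L : Type*} [Field L] {A : ValuationSubring L}
variable {F : Type*} [Field F] [Algebra L F]
variable {Fk : Type*} [Field Fk] [Algebra (IsLocalRing.ResidueField A) Fk]
variable [HasPrincipalDivisors L F] [HasPrincipalDivisors (IsLocalRing.ResidueField A) Fk]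

local notation "k" => IsLocalRing.ResidueField A

variable {G : Type*} [Group G] {D : RedDatum A F Fk} {S : SymData D G} {g : ℕ}

/-- the representative attached to a normal form -/
def NForm.toRep {ℓ : ℕ} {x : Pic0 L F} (n : NForm D ℓ x) : Weil.Rep ℓ x where
  D := (n.E : Divisor L F)
  deg := n.E.2
  f := n.f
  f_ne := n.f_ne
  div_eq := n.div_f
  cls := n.mk_E

/-- **(O3)  TOP × TOP ⇒ the Weil pairing is trivial.** -/
theorem weilPair_eq_one_of_isTop [Weil.WeilCurve L F] {g' : ℕ} (hF : IsCurveOfGenus L F g')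
    (hFk : IsCurveOfGenus k Fk g') {ℓ : ℕ} (hℓ : ℓ.Prime) [CharP Fk ℓ]
    (hperf : ∀ a : k, ∃ b : k, b ^ ℓ = a) (hℓA : A.valuation (ℓ : L) < 1) (hℓ0 : (ℓ : L) ≠ 0)
    (hfam : ExistsFamStmt D S g) (hker : KerStmt D S g)
    (hlift : ∀ Q : Place k Fk, ∃ P : Place L F, D.r P = Q) {x y : Pic0 L F}
    (hx : IsTop D ℓ x) (hy : IsTop D ℓ y) : Weil.weilPair ℓ x y = 1 := by
  classical
  have := hFk.infinite_places
  have hxK : x ∈ Kred D := by obtain ⟨n, -⟩ := hx; exact n.mem_Kred hℓ.ne_zero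
  have hyK : y ∈ Kred D := by obtain ⟨n, -⟩ := hy; exact n.mem_Kred hℓ.ne_zero
  have hℓx : ℓ • x = 0 := by obtain ⟨n, -⟩ := hx; exact n.nsmul_eq_zero
  have hℓy : ℓ • y = 0 := by obtain ⟨n, -⟩ := hy; exact n.nsmul_eq_zero
  -- two disjoint families
  obtain ⟨a, -⟩ := hfam ∅
  obtain ⟨b, hb⟩ := hfam (Finset.univ.image a.Qb)
  have hab : a.Disjoint b := fun i j h =>
    hb j (Finset.mem_image.2 ⟨i, Finset.mem_univ _, h⟩)
  have hba : b.Disjoint a := fun j i h => hab i j h.symm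
  obtain ⟨u, hu, rfl⟩ := (hker a).1 x hxK
  obtain ⟨v, hv, rfl⟩ := (hker b).1 y hyK
  -- base points and canonical forms
  obtain ⟨Q₀, hQ₀⟩ := Infinite.exists_notMem_finset (Finset.univ.image a.Qb)
  obtain ⟨P₀, hP₀⟩ := hlift Q₀
  have hP₀' : ∀ i, D.r P₀ ≠ a.Qb i := fun i h =>
    hQ₀ (Finset.mem_image.2 ⟨i, Finset.mem_univ _, by rw [← h, hP₀]⟩)
  obtain ⟨Q₁, hQ₁⟩ := Infinite.exists_notMem_finset (Finset.univ.image b.Qb)
  obtain ⟨P₁, hP₁⟩ := hlift Q₁
  have hP₁' : ∀ i, D.r P₁ ≠ b.Qb i := fun i h =>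
    hQ₁ (Finset.mem_image.2 ⟨i, Finset.mem_univ _, by rw [← h, hP₁]⟩)
  obtain ⟨nx, hnxE, hevx⟩ := exists_canon hF hFk a hℓx hP₀'
  obtain ⟨ny, hnyE, hevy⟩ := exists_canon hF hFk b hℓy hP₁'
  have htopx := Top.canon_depth_le_of_isTop hF hFk hℓ hperf a hlift hx nx hnxE hP₀' hevx
  have htopy := Top.canon_depth_le_of_isTop hF hFk hℓ hperf b hlift hy ny hnyE hP₁' hevy
  by_cases hfx : nx.f = 1
  · rw [Top.eq_zero_of_f_eq_one hℓ.ne_zero nx hfx]
    exact Weil.weilPair_zero_left hℓy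
  by_cases hfy : ny.f = 1
  · rw [Top.eq_zero_of_f_eq_one hℓ.ne_zero ny hfy]
    exact Weil.weilPair_zero_right hℓx
  obtain ⟨πx, gx, hπx0, hπx1, hgxO, hfgx, hπxtop⟩ := Top.exists_eq_one_add_of_top nx hfx htopx
  obtain ⟨πy, gy, hπy0, hπy1, hgyO, hfgy, hπytop⟩ := Top.exists_eq_one_add_of_top ny hfy htopy
  -- the coordinate bounds
  have hvb : ∀ j, A.valuation (v j) ^ ℓ ≤ A.valuation πy :=
    Top.val_coord_pow_le hℓ.ne_zero b hv ny hnyE hπy0 hgyO hfgy
  have hub : ∀ i, A.valuation (u i) ^ ℓ ≤ A.valuation πx :=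
    Top.val_coord_pow_le hℓ.ne_zero a hu nx hnxE hπx0 hgxO hfgx
  -- Weil's formula
  have hdisj : nx.toRep.Disjoint ny.toRep := by
    intro P hP
    show (ny.E : Divisor L F) P = 0
    have hP' : (nx.E : Divisor L F) P ≠ 0 := hP
    rw [hnyE]
    refine canonE_apply_eq_zero b v fun j hj => hP' ?_
    rw [hnxE]
    exact Top.canonE_apply_eq_zero_of_disjoint hab u j hj
  have hform := Weil.weilPair_eq nx.toRep ny.toRep hdisj
  have hpow := Weil.weilPair_pow (K := L) (F := F) hℓx hℓy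
  -- the radius
  set T : Finset A.ValueGroup := insert 0
    (Finset.univ.image (fun j => A.valuation (πx * v j))
      ∪ Finset.univ.image (fun i => A.valuation (πy * u i))) with hT
  have hTne : T.Nonempty := ⟨0, Finset.mem_insert_self _ _⟩
  obtain ⟨ρ, hρT, hρmax⟩ : ∃ ρ ∈ T, ∀ t ∈ T, t ≤ ρ :=
    ⟨T.max' hTne, T.max'_mem hTne, fun t ht => T.le_max' t ht⟩
  have hρv : ∀ j, A.valuation (πx * v j) ≤ ρ := fun j => hρmax _ (Finset.mem_insert_of_mem
    (Finset.mem_union_left _ (Finset.mem_image.2 ⟨j, Finset.mem_univ _, rfl⟩)))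
  have hρu : ∀ i, A.valuation (πy * u i) ≤ ρ := fun i => hρmax _ (Finset.mem_insert_of_mem
    (Finset.mem_union_right _ (Finset.mem_image.2 ⟨i, Finset.mem_univ _, rfl⟩)))
  have hℓ1' : (ℓ - 1) * ℓ ≠ 0 :=
    Nat.mul_ne_zero (by have := hℓ.two_le; omega) hℓ.ne_zero
  have hρlt : ρ < 1 := by
    rcases Finset.mem_insert.1 hρT with h | h
    · rw [h]; exact zero_lt_one
    · rcases Finset.mem_union.1 h with h | h
      · obtain ⟨j, -, rfl⟩ := Finset.mem_image.1 h
        rw [map_mul]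
        exact mul_lt_one_of_nonneg_of_lt_one_left zero_le hπx1 (hv j).le
      · obtain ⟨i, -, rfl⟩ := Finset.mem_image.1 h
        rw [map_mul]
        exact mul_lt_one_of_nonneg_of_lt_one_left zero_le hπy1 (hu i).le
  have hρtop : ρ ^ ((ℓ - 1) * ℓ) ≤ A.valuation (ℓ : L) ^ (ℓ * ℓ + ℓ) := by
    rcases Finset.mem_insert.1 hρT with h | h
    · rw [h, zero_pow hℓ1']; exact zero_le
    · rcases Finset.mem_union.1 h with h | h
      · obtain ⟨j, -, rfl⟩ := Finset.mem_image.1 h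
        rw [map_mul]
        exact Top.mul_pow_le_of_top hπxtop hπytop (hvb j)
      · obtain ⟨i, -, rfl⟩ := Finset.mem_image.1 h
        rw [map_mul]
        exact Top.mul_pow_le_of_top hπytop hπxtop (hub i)
  -- the two values
  have hX : A.valuation (Weil.evalDiv nx.f (canonE b v : Divisor L F) - 1) ≤ ρ :=
    Top.val_evalDiv_canonE_sub_one_le hab hv nx hnxE hπx0 hπx1 hgxO hfgx hρlt.le hρv
  have hY : A.valuation (Weil.evalDiv ny.f (canonE a u : Divisor L F) - 1) ≤ ρ :=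
    Top.val_evalDiv_canonE_sub_one_le hba hu ny hnyE hπy0 hπy1 hgyO hfgy hρlt.le hρu
  have hclose : A.valuation (Weil.weilPair ℓ (a.Θ u) (b.Θ v) - 1) ≤ ρ := by
    rw [hform]
    show A.valuation (Weil.evalDiv nx.f (ny.E : Divisor L F)
      / Weil.evalDiv ny.f (nx.E : Divisor L F) - 1) ≤ ρ
    rw [hnxE, hnyE]
    exact Top.val_div_sub_one_le A.valuation hρlt hX hY
  exact Top.eq_one_of_pow_eq_one_of_close A.valuation hℓ hℓA hℓ0 hpow hclose hρtop

end Fermat.Agent.S15lib.ORD
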