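/-
S15lib / ORD / Iso  (helper5)  — Project E, block ORD, part 7: **(L1) `Kum.IsoStmt`**

For `p` prime, `r ≠ p` prime, `A ∣ r`: every point of `X = VE p r 1 ⊓ ker red_A` is at top depth
(cycle lemma `forall_isTop_of_step` with `T = T_r`, which permutes `X`: `η_r` is nilpotent on `X`
and `(1 + r) x = x`), and top × top pairs trivially under the Weil pairing (helper6's (O3)).
-/
import Mathlib
import Fermat.Agent.S15lib.ORD.Hecke
import Fermat.Agent.S15lib.ORD.Top
import Fermat.Agent.S15lib.Germ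
import Fermat.Agent.S15lib.Kum.Mt1
import Fermat.Agent.S15lib.Adm.Stab

set_option autoImplicit false
set_option linter.unusedSectionVars false
set_option linter.style.haveILetI false

noncomputable section

namespace Fermat.Agent.S15lib.ORD

open AlgebraicCurve ModularCurve Fermat.Agent.S18lib Fermat.Agent.S19lib
open Fermat.Agent.S19lib.Geom Fermat.Agent.S15lib.Desc

local notation "Qb" => AlgebraicClosure ℚ

/-- an additive endomorphism of the form `1 + η` with `η` nilpotent at `x` and at `y`: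
`(1 + η) x = (1 + η) y → x = y`, abstractly: a nilpotent `η` has `η z = -z → z = 0`. -/
theorem eq_zero_of_nilpotent_apply {M : Type*} [AddCommGroup M] (η : AddMonoid.End M) {z : M}
    (j : ℕ) (hj : (η ^ j) z = 0) (hz : η z = -z) : z = 0 := by
  have h : ∀ i : ℕ, (η ^ i) z = (-1 : ℤ) ^ i • z := by
    intro i
    induction i with
    | zero => simp
    | succ i ih =>
      rw [pow_succ']
      show η ((η ^ i) z) = _
      rw [ih, map_zsmul, hz, pow_succ, mul_smul]
      simp
  have h2 := h j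
  rw [hj] at h2
  rcases neg_one_pow_eq_or ℤ j with h3 | h3
  · rw [h3, one_smul] at h2; exact h2.symm
  · rw [h3, neg_one_smul] at h2; exact neg_eq_zero.1 h2.symm

/-- **(L1)** the kernel of reduction in the Eisenstein part of `J[r]` is isotropic. -/
theorem isoStmt : Kum.IsoStmt := by
  intro p hp hp' r hr hrp A hA
  haveI : NeZero p := ⟨hp.ne_zero⟩
  haveI : Fact r.Prime := ⟨hr⟩
  haveI : NeZero r := ⟨hr.ne_zero⟩
  have hrp' : ¬ r ∣ p := fun h => hrp ((Nat.prime_dvd_prime_iff_eq hr hp).1 h)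
  obtain ⟨g, hF, hFk⟩ := B.exists_genus_modDatum p A hrp' hA
  haveI : HasPrincipalDivisors Qb (FBar p) := hF.hasPrincipalDivisors
  haveI : HasPrincipalDivisors (kRes A) (FRes A p) := hFk.hasPrincipalDivisors
  haveI : CharP (kRes A) r := Gink.charP_kRes A hA
  haveI : CharP (FRes A p) r :=
    charP_of_injective_algebraMap (algebraMap (kRes A) (FRes A p)).injective r
  haveI : IsAlgClosed (kRes A) := Gink.isAlgClosed_residueField A
  have hperf : ∀ a : kRes A, ∃ b : kRes A, b ^ r = a := fun a =>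
    IsAlgClosed.exists_pow_nat_eq a hr.pos
  have hfam := B.mod_existsFamStmt p A hrp' hA hF hFk
  have hker := B.mod_kerStmt p A hrp' hA hF hFk
  have hlift : ∀ Q : Place (kRes A) (FRes A p), ∃ P : Place Qb (FBar p),
      (B.modDatum p A hrp' hA).r P = Q := fun Q => by
    obtain ⟨P, hP, -⟩ := B.mod_fixedLiftPlaceStmt p A hrp' hA Q
    exact ⟨P, hP⟩
  obtain ⟨a, -⟩ := hfam ∅
  -- the Hecke operator `T_r`
  set q : Nat.Primes := ⟨r, hr⟩ with hq
  have hqp : (q : ℕ) ≠ p := hrp
  have hTJ : ∀ x : JZero p, TJ p q x = Tl p (ℓ := r) x := fun x => by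
    show Fermat.Agent.S29lib.H.TJ p q x = _
    rw [Fermat.Agent.S29lib.H.TJ_of_not_dvd p (ℓ := q) hrp']
  -- the set `X`
  have hXK : ∀ x ∈ VE p r 1 ⊓ kerRed p A, x ∈ Kred (B.modDatum p A hrp' hA) := fun x hx =>
    (mem_Kred_modDatum_iff p r hrp' A hA x).2 hx.2
  have hXr : ∀ x ∈ VE p r 1 ⊓ kerRed p A, r • x = 0 := fun x hx => by
    have := hx.1.1
    rwa [pow_one] at this
  have key : ∀ x ∈ ((VE p r 1 ⊓ kerRed p A : AddSubgroup (JZero p)) : Set (JZero p)),
      IsTop (B.modDatum p A hrp' hA) r x := by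
    refine forall_isTop_of_step ?_ (fun x => Tl p (ℓ := r) x) ?_ ?_ ?_ ?_ ?_
    · -- finiteness
      haveI := Adm.finite_VE (p := p) hr 1
      exact Set.Finite.subset (Set.toFinite ((VE p r 1 : AddSubgroup (JZero p)) : Set (JZero p)))
        fun x hx => hx.1
    · -- `T_r` maps `X` to `X`
      intro x hx
      have hopt := isTop_or_exists_optimal hF hFk hr hperf a hker hlift (hXK x hx) (hXr x hx)
      have hn : Nonempty (NForm (B.modDatum p A hrp' hA) r x) := by
        rcases hopt with ⟨n, -⟩ | ⟨n, -⟩ <;> exact ⟨n⟩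
      obtain ⟨n⟩ := hn
      obtain ⟨⟨n', -⟩, -⟩ := exists_nform_Tl_depth p A hrp' hA n
      refine ⟨?_, ?_⟩
      · show Tl p (ℓ := r) x ∈ VE p r 1
        rw [← hTJ]
        exact (Adm.isStab_VE hp hr 1).2 q hqp x hx.1
      · exact (mem_Kred_modDatum_iff p r hrp' A hA _).1 (n'.mem_Kred hr.ne_zero)
    · -- injectivity
      intro x hx y hy hxy
      have hxy' : Tl p (ℓ := r) (x - y) = 0 := by
        rw [map_sub]; exact sub_eq_zero.2 hxy
      have hz : x - y ∈ VE p r 1 := (VE p r 1).sub_mem hx.1 hy.1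
      have hzr : r • (x - y) = 0 := by
        have := hz.1
        rwa [pow_one] at this
      obtain ⟨j, hj⟩ := hz.2 q hqp
      have hη : eta p q (x - y) = -(x - y) := by
        rw [Adm.eta_apply, hTJ, hxy', zero_sub, add_smul, one_smul]
        show -(x - y + r • (x - y)) = _
        rw [hzr, add_zero]
      exact sub_eq_zero.1 (eq_zero_of_nilpotent_apply (eta p q) j hj hη)
    · intro x hx
      exact isTop_or_exists_optimal hF hFk hr hperf a hker hlift (hXK x hx) (hXr x hx)
    · intro x hx n hn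
      exact (exists_nform_Tl_depth p A hrp' hA n).2 hn
    · rintro x hx ⟨n, hn⟩
      obtain ⟨⟨n', hn'⟩, -⟩ := exists_nform_Tl_depth p A hrp' hA n
      exact ⟨n', (pow_le_pow_left' hn' _).trans hn⟩
  intro x hx y hy
  have hℓ0 : ((r : ℕ) : Qb) ≠ 0 := Nat.cast_ne_zero.2 hr.ne_zero
  exact weilPair_eq_one_of_isTop hF hFk hr hperf (Fermat.Agent.S19lib.D.valuation_ell_lt_one A hA) hℓ0 hfam hker hlift
    (key x hx) (key y hy)

end Fermat.Agent.S15lib.ORD
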