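/-
S15lib / ORD / Count  (helper5)  — Project E, block ORD, part 8: **`Desc.OrdStmt`**

* `card_sq_le_of_isotropic` : an isotropic subgroup `X` of a finite group `V` with a nondegenerate
  bimultiplicative pairing into a field of characteristic zero has `|X|² ≤ |V|`
  (double counting of `Σ_{v ∈ V} Σ_{x ∈ X} e(v, x)`; sums of nontrivial characters vanish);
* `card_le_pow_of_nsmul` : `|G_K| ≤ |G_1|^K` along `x ↦ r x`;
* `ordStmt : Kum.NondegStmt → (|VE_K| = |VE_1|^K) → Desc.OrdStmt`.
-/
import Mathlib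
import Fermat.Agent.S15lib.ORD.Iso

set_option autoImplicit false
set_option linter.unusedSectionVars false
set_option linter.style.haveILetI false

noncomputable section

namespace Fermat.Agent.S15lib.ORD

open AlgebraicCurve ModularCurve Fermat.Agent.S15lib.Desc

local notation "Qb" => AlgebraicClosure ℚ

/-- **isotropic subgroups of a nondegenerate pairing are small**: `|X|² ≤ |V|`. -/
theorem card_sq_le_of_isotropic {J K : Type*} [AddCommGroup J] [Field K] [CharZero K]
    (e : J → J → K) (V X : AddSubgroup J) [Finite V] (hXV : X ≤ V)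
    (hadd_l : ∀ x₁ ∈ V, ∀ x₂ ∈ V, ∀ y ∈ V, e (x₁ + x₂) y = e x₁ y * e x₂ y)
    (hadd_r : ∀ x ∈ V, ∀ y₁ ∈ V, ∀ y₂ ∈ V, e x (y₁ + y₂) = e x y₁ * e x y₂)
    (hzero_r : ∀ x ∈ V, e x 0 = 1)
    (hiso : ∀ x ∈ X, ∀ y ∈ X, e x y = 1)
    (hnd : ∀ x ∈ V, (∀ y ∈ V, e y x = 1) → x = 0) :
    Nat.card X ^ 2 ≤ Nat.card V := by
  classical
  haveI : Fintype V := Fintype.ofFinite V
  haveI : Finite X :=
    Finite.of_injective (AddSubgroup.inclusion hXV) (AddSubgroup.inclusion_injective hXV)
  haveI : Fintype X := Fintype.ofFinite X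
  -- sums of nontrivial characters vanish
  have hsumV : ∀ x : X, (x : J) ≠ 0 → ∑ v : V, e (v : J) (x : J) = 0 := by
    intro x hx
    obtain ⟨v₀, hv₀V, hv₀⟩ : ∃ v₀ ∈ V, e v₀ x ≠ 1 := by
      by_contra h
      push_neg at h
      exact hx (hnd x (hXV x.2) h)
    have h1 : ∑ v : V, e (v : J) (x : J) = ∑ v : V, e (((⟨v₀, hv₀V⟩ + v : V)) : J) (x : J) :=
      (Equiv.sum_comp (Equiv.addLeft (⟨v₀, hv₀V⟩ : V)) (fun v : V => e (v : J) (x : J))).symm
    have h2 : ∑ v : V, e (((⟨v₀, hv₀V⟩ + v : V)) : J) (x : J)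
        = e v₀ x * ∑ v : V, e (v : J) (x : J) := by
      rw [Finset.mul_sum]
      refine Finset.sum_congr rfl fun v _ => ?_
      exact hadd_l v₀ hv₀V v v.2 x (hXV x.2)
    have h3 : (e v₀ x - 1) * ∑ v : V, e (v : J) (x : J) = 0 := by
      rw [sub_mul, one_mul, ← h2, ← h1, sub_self]
    exact (mul_eq_zero.1 h3).resolve_left (sub_ne_zero.2 hv₀)
  have hsumX : ∀ v : V, (∃ x₀ : X, e (v : J) (x₀ : J) ≠ 1) → ∑ x : X, e (v : J) (x : J) = 0 := by
    rintro v ⟨x₀, hx₀⟩
    have h1 : ∑ x : X, e (v : J) (x : J) = ∑ x : X, e (v : J) (((x₀ + x : X)) : J) :=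
      (Equiv.sum_comp (Equiv.addLeft x₀) (fun x : X => e (v : J) (x : J))).symm
    have h2 : ∑ x : X, e (v : J) (((x₀ + x : X)) : J)
        = e (v : J) (x₀ : J) * ∑ x : X, e (v : J) (x : J) := by
      rw [Finset.mul_sum]
      refine Finset.sum_congr rfl fun x _ => ?_
      exact hadd_r v v.2 x₀ (hXV x₀.2) x (hXV x.2)
    have h3 : (e (v : J) (x₀ : J) - 1) * ∑ x : X, e (v : J) (x : J) = 0 := by
      rw [sub_mul, one_mul, ← h2, ← h1, sub_self]
    exact (mul_eq_zero.1 h3).resolve_left (sub_ne_zero.2 hx₀)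
  -- the double sum, first way
  have hS1 : ∑ x : X, ∑ v : V, e (v : J) (x : J) = (Fintype.card V : K) := by
    rw [Finset.sum_eq_single (0 : X)]
    · rw [← Finset.card_univ, Finset.card_eq_sum_ones, Nat.cast_sum]
      refine Finset.sum_congr rfl fun v _ => ?_
      rw [Nat.cast_one]
      exact hzero_r v v.2
    · intro x _ hx
      exact hsumV x fun h => hx (Subtype.ext h)
    · intro h
      exact absurd (Finset.mem_univ _) h
  -- the double sum, second way
  set Y : Finset V := Finset.univ.filter fun v : V => ∀ x : X, e (v : J) (x : J) = 1 with hY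
  have hS2 : ∑ v : V, ∑ x : X, e (v : J) (x : J) = ((Y.card * Fintype.card X : ℕ) : K) := by
    have h1 : ∀ v : V, ∑ x : X, e (v : J) (x : J)
        = if v ∈ Y then (Fintype.card X : K) else 0 := by
      intro v
      split_ifs with hv
      · rw [hY, Finset.mem_filter] at hv
        rw [← Finset.card_univ, Finset.card_eq_sum_ones, Nat.cast_sum]
        refine Finset.sum_congr rfl fun x _ => ?_
        rw [Nat.cast_one]
        exact hv.2 x
      · apply hsumX v
        by_contra h
        push_neg at h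
        exact hv (by rw [hY, Finset.mem_filter]; exact ⟨Finset.mem_univ _, h⟩)
    rw [Finset.sum_congr rfl fun v _ => h1 v, Finset.sum_ite_mem, Finset.univ_inter,
      Finset.sum_const, nsmul_eq_mul, Nat.cast_mul]
  have hcard : Fintype.card V = Y.card * Fintype.card X := by
    have : (Fintype.card V : K) = ((Y.card * Fintype.card X : ℕ) : K) := by
      rw [← hS1, ← hS2, Finset.sum_comm]
    exact Nat.cast_injective this
  -- `X ⊆ Y`
  have hXY : Fintype.card X ≤ Y.card := by
    have himg : (Finset.univ.image (AddSubgroup.inclusion hXV)) ⊆ Y := by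
      intro v hv
      obtain ⟨x, -, rfl⟩ := Finset.mem_image.1 hv
      rw [hY, Finset.mem_filter]
      exact ⟨Finset.mem_univ _, fun x' => hiso x x.2 x' x'.2⟩
    calc Fintype.card X = (Finset.univ.image (AddSubgroup.inclusion hXV)).card := by
          rw [Finset.card_image_of_injective _ (AddSubgroup.inclusion_injective hXV),
            Finset.card_univ]
      _ ≤ Y.card := Finset.card_le_card himg
  rw [Nat.card_eq_fintype_card, Nat.card_eq_fintype_card, hcard, sq]
  exact Nat.mul_le_mul_right _ hXY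

/-- **`|G_K| ≤ |G_1|^K`** along `x ↦ r x` -/
theorem card_le_pow_of_nsmul {J : Type*} [AddCommGroup J] (r : ℕ) (G : ℕ → AddSubgroup J)
    [∀ K, Finite (G K)] (h0 : G 0 = ⊥)
    (hstep : ∀ K, ∀ x ∈ G (K + 1), r • x ∈ G K)
    (hker : ∀ K, ∀ x ∈ G (K + 1), r • x = 0 → x ∈ G 1) (K : ℕ) :
    Nat.card (G K) ≤ Nat.card (G 1) ^ K := by
  induction K with
  | zero =>
    rw [pow_zero, h0]
    simp
  | succ K ih =>
    let f : G (K + 1) →+ G K :=
      { toFun := fun x => ⟨r • (x : J), hstep K x x.2⟩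
        map_zero' := Subtype.ext (smul_zero r)
        map_add' := fun x y => Subtype.ext (smul_add r (x : J) (y : J)) }
    have h1 : Nat.card f.ker * Nat.card f.range = Nat.card (G (K + 1)) := by
      rw [← AddSubgroup.index_ker, AddSubgroup.card_mul_index]
    have h2 : Nat.card f.range ≤ Nat.card (G K) :=
      Nat.card_le_card_of_injective _ Subtype.val_injective
    have h3 : Nat.card f.ker ≤ Nat.card (G 1) := by
      refine Nat.card_le_card_of_injective
        (fun x : f.ker => (⟨((x : G (K + 1)) : J), hker K _ (x : G (K + 1)).2 ?_⟩ : G 1)) ?_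
      · have := x.2
        rw [AddMonoidHom.mem_ker] at this
        exact congrArg Subtype.val this
      · intro x y hxy
        have h4 : ((x : G (K + 1)) : J) = ((y : G (K + 1)) : J) :=
          congrArg (fun t : G 1 => (t : J)) hxy
        exact Subtype.ext (Subtype.ext h4)
    calc Nat.card (G (K + 1)) = Nat.card f.ker * Nat.card f.range := h1.symm
      _ ≤ Nat.card (G 1) * Nat.card (G 1) ^ K := Nat.mul_le_mul h3 (h2.trans ih)
      _ = Nat.card (G 1) ^ (K + 1) := by rw [pow_succ, mul_comm]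

/-- **(ORD)** purity at `r`, from the nondegeneracy of the Weil pairing on `VE p r 1` and the count
`|VE p r K| = |VE p r 1|^K`. -/
theorem ordStmt (hND : Kum.NondegStmt)
    (hpow : ∀ {p : ℕ} (hp : p.Prime) (_hp' : p ∉ ({2, 3, 5, 7, 13} : Finset ℕ))
      {r : ℕ} (_hr : r.Prime) (_hrp : r ≠ p) (K : ℕ),
      haveI : NeZero p := ⟨hp.ne_zero⟩
      Nat.card ↥(VE p r K) = Nat.card ↥(VE p r 1) ^ K) : OrdStmt := by
  intro p hp hp' r hr hrp K A hA
  haveI : NeZero p := ⟨hp.ne_zero⟩
  have htor : ∀ {z : JZero p}, z ∈ VE p r 1 → r • z = 0 := by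
    intro z hz
    have := hz.1
    rwa [pow_one] at this
  haveI hfin : ∀ K, Finite ↥(VE p r K ⊓ kerRed p A) := fun K => by
    haveI := Adm.finite_VE (p := p) hr K
    exact Finite.of_injective (AddSubgroup.inclusion (inf_le_left : VE p r K ⊓ kerRed p A ≤ VE p r K))
      (AddSubgroup.inclusion_injective _)
  -- level one
  have h1 : Nat.card ↥(VE p r 1 ⊓ kerRed p A) ^ 2 ≤ Nat.card ↥(VE p r 1) := by
    haveI := Adm.finite_VE (p := p) hr 1
    refine card_sq_le_of_isotropic (fun x y : JZero p => Weil.weilPair r x y) (VE p r 1)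
      (VE p r 1 ⊓ kerRed p A) inf_le_left ?_ ?_ ?_ ?_ ?_
    · intro x₁ hx₁ x₂ hx₂ y hy
      exact Weil.weilPair_add_left (htor hx₁) (htor hx₂) (htor hy)
    · intro x hx y₁ hy₁ y₂ hy₂
      exact Weil.weilPair_add_right (htor hx) (htor hy₁) (htor hy₂)
    · intro x hx
      exact Weil.weilPair_zero_right (htor hx)
    · intro x hx y hy
      exact isoStmt hp hp' hr hrp A hA x hx y hy
    · intro x hx h
      refine hND hp hp' hr hrp x hx fun y hy => ?_
      have := Weil.weilPair_swap (K := Qb) (F := FB p) (htor hy) (htor hx)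
      rw [this, h y hy, inv_one]
  -- all levels
  have h2 : Nat.card ↥(VE p r K ⊓ kerRed p A) ≤ Nat.card ↥(VE p r 1 ⊓ kerRed p A) ^ K := by
    refine card_le_pow_of_nsmul r (fun K => VE p r K ⊓ kerRed p A) ?_ ?_ ?_ K
    · rw [eq_bot_iff]
      intro x hx
      have := hx.1.1
      rw [pow_zero, one_smul] at this
      rw [AddSubgroup.mem_bot]
      exact this
    · intro K x hx
      refine ⟨⟨?_, fun q hq => ?_⟩, (kerRed p A).nsmul_mem hx.2 r⟩
      · rw [← mul_smul, ← pow_succ]
        exact hx.1.1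
      · obtain ⟨j, hj⟩ := hx.1.2 q hq
        exact ⟨j, by rw [map_nsmul, hj, smul_zero]⟩
    · intro K x hx hrx
      exact ⟨⟨by rw [pow_one]; exact hrx, hx.1.2⟩, hx.2⟩
  calc Nat.card ↥(VE p r K ⊓ kerRed p A) ^ 2
      ≤ (Nat.card ↥(VE p r 1 ⊓ kerRed p A) ^ K) ^ 2 := Nat.pow_le_pow_left h2 2
    _ = (Nat.card ↥(VE p r 1 ⊓ kerRed p A) ^ 2) ^ K := by rw [← pow_mul, ← pow_mul, mul_comm]
    _ ≤ Nat.card ↥(VE p r 1) ^ K := Nat.pow_le_pow_left h1 K
    _ = Nat.card ↥(VE p r K) := (hpow hp hp' hr hrp K).symm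

end Fermat.Agent.S15lib.ORD
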