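/-
S15lib / ORD / Main  (helper5)  — Project E, block ORD: the two deliverables

* `isoStmt : Kum.IsoStmt`                              (L1), in `ORD/Iso.lean`;
* `ordStmt_of_nondeg : Kum.NondegStmt → Desc.OrdStmt`  (ORD), with helper3's `Adm.card_VE_pow`.
-/
import Mathlib
import Fermat.Agent.S15lib.ORD.Count
import Fermat.Agent.S15lib.Adm.Count

set_option autoImplicit false
set_option linter.unusedSectionVars false
set_option linter.style.haveILetI false

noncomputable section

namespace Fermat.Agent.S15lib.ORD

open Fermat.Agent.S15lib.Desc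

/-- **(ORD)** purity at `r`: `|VE p r K ⊓ ker red_A|² ≤ |VE p r K|`, from the nondegeneracy of the
Weil pairing on `VE p r 1`. -/
theorem ordStmt_of_nondeg (hND : Kum.NondegStmt) : OrdStmt :=
  ordStmt hND (by
    intro p hp _ r hr hrp K
    exact Adm.card_VE_pow hp hr hrp K)

end Fermat.Agent.S15lib.ORD
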