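/-
S15lib / ORD / Step  (helper5)  — Project E, block ORD, part 4 (abstract Hecke step + cycle lemma)

* `NForm.exists_deeper` : if a normal form `f = 1 + π₀ G` is below top and `Ḡ` is an `ℓ`-th power,
  then dividing by `(1 + π₀^(1/ℓ) ψ)^ℓ` gives a strictly deeper normal form of the same class.
* `forall_isTop_of_step` : **cycle lemma**.  If a permutation `T` of a finite set `V` of classes
  sends every normal form below top to a class with a strictly deeper normal form, and preserves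
  top depth, and every class of `V` is top or has an optimal normal form, then all of `V` is top.
-/
import Mathlib
import Fermat.Agent.S15lib.ORD.Canon

set_option autoImplicit false
set_option linter.unusedSectionVars false

noncomputable section

namespace Fermat.Agent.S15lib.ORD

open AlgebraicCurve Fermat.Agent.LSb Fermat.Agent.S18lib Fermat.Agent.S19lib.C
open Fermat.Agent.S19lib.Geom Fermat.Agent.S19lib

variable {L : Type*} [Field L] {A : ValuationSubring L}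
variable {F : Type*} [Field F] [Algebra L F]
variable {Fk : Type*} [Field Fk] [Algebra (IsLocalRing.ResidueField A) Fk]
variable [HasPrincipalDivisors L F] [HasPrincipalDivisors (IsLocalRing.ResidueField A) Fk]

local notation "k" => IsLocalRing.ResidueField A

variable {D : RedDatum A F Fk} {ℓ : ℕ}

/-- **the deepening step** -/
theorem NForm.exists_deeper (hℓ : ℓ.Prime) {x : Pic0 L F} (n : NForm D ℓ x)
    {π₀ ϖ : L} (hϖ : ϖ ^ ℓ = π₀) (hπ0 : π₀ ≠ 0) (hπ1 : A.valuation π₀ < 1)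
    (hbelow : D.O.valuation (ℓ : F) ^ ℓ < D.O.valuation (algebraMap L F π₀) ^ (ℓ - 1))
    {G : F} (hG : G ∈ D.O) (hfG : n.f = 1 + algebraMap L F π₀ * G)
    {ψb : Fk} (hψ : D.redF G = ψb ^ ℓ) :
    ∃ n' : NForm D ℓ x, n'.depth < D.O.valuation (algebraMap L F π₀) := by
  set v := D.O.valuation with hv
  set π := algebraMap L F π₀ with hπ
  have hℓ1 : ℓ - 1 + 1 = ℓ := Nat.sub_add_cancel hℓ.pos
  have hπne : π ≠ 0 := (map_ne_zero _).2 hπ0
  have hρpos : 0 < v π := zero_lt_iff.2 ((Valuation.ne_zero_iff _).2 hπne)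
  have hπlt : v π < 1 := (val_algebraMap_lt_one_iff D π₀).2 hπ1
  have hϖpow : algebraMap L F ϖ ^ ℓ = π := by rw [← map_pow, hϖ]
  have hϖlt : v (algebraMap L F ϖ) < 1 := by
    by_contra hcon
    rw [not_lt] at hcon
    have : 1 ≤ v (algebraMap L F ϖ) ^ ℓ := one_le_pow₀ hcon
    rw [← map_pow, hϖpow] at this
    exact absurd hπlt (not_lt.2 this)
  have hϖO : algebraMap L F ϖ ∈ D.O := mem_of_val_le D hϖlt.le
  -- the lift of `ψb`
  obtain ⟨⟨ψ, hψO⟩, hψred⟩ := D.red_surjective ψb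
  have hψred' : D.redF ψ = ψb := by rw [D.redF_of_mem hψO]; exact hψred
  have hϖψO : algebraMap L F ϖ * ψ ∈ D.O := D.O.mul_mem _ _ hϖO hψO
  have hϖψlt : v (algebraMap L F ϖ * ψ) < 1 := by
    rw [map_mul]
    calc v (algebraMap L F ϖ) * v ψ ≤ v (algebraMap L F ϖ) * 1 :=
          mul_le_mul' le_rfl (val_le_of_mem D hψO)
      _ = v (algebraMap L F ϖ) := mul_one _
      _ < 1 := hϖlt
  set h := 1 + algebraMap L F ϖ * ψ with hh
  have hhv : v h = 1 := Valuation.map_one_add_of_lt _ hϖψlt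
  have hh0 : h ≠ 0 := by
    intro h0
    rw [h0, map_zero] at hhv
    exact zero_ne_one hhv
  have hhℓ0 : h ^ ℓ ≠ 0 := pow_ne_zero _ hh0
  have hhℓv : v (h ^ ℓ) = 1 := by rw [map_pow, hhv, one_pow]
  -- the expansion of `h ^ ℓ`
  obtain ⟨r, hr⟩ := exists_add_pow_prime_eq hℓ (⟨algebraMap L F ϖ * ψ, hϖψO⟩ : D.O) 1
  have hexp : h ^ ℓ = 1 + π * ψ ^ ℓ + (ℓ : F) * (algebraMap L F ϖ * ψ) * (r : F) := by
    have h1 := congrArg (fun z : D.O => (z : F)) hr
    simp only [one_pow, mul_one] at h1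
    push_cast at h1
    rw [hh, add_comm 1 _, h1, mul_pow, hϖpow]
    ring
  -- the estimate
  have hdiff : n.f - h ^ ℓ
      = π * (G - ψ ^ ℓ) - (ℓ : F) * (algebraMap L F ϖ * ψ) * (r : F) := by
    rw [hfG, hexp]; ring
  have hGψ : v (G - ψ ^ ℓ) < 1 := by
    apply val_lt_of_redF_eq_zero D (D.O.sub_mem hG (pow_mem hψO ℓ))
    rw [D.redF_sub hG (pow_mem hψO ℓ), D.redF_pow hψO, hψred', hψ, sub_self]
  have h1 : v (π * (G - ψ ^ ℓ)) < v π := by
    rw [map_mul]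
    exact mul_lt_of_lt_one_right hρpos hGψ
  have h2 : v ((ℓ : F) * (algebraMap L F ϖ * ψ) * (r : F)) < v π := by
    have h3 : v ((ℓ : F) * (algebraMap L F ϖ * ψ) * (r : F))
        ≤ v (ℓ : F) * v (algebraMap L F ϖ) := by
      rw [map_mul, map_mul, map_mul, ← mul_assoc]
      calc v (ℓ : F) * v (algebraMap L F ϖ) * v ψ * v (r : F)
          ≤ v (ℓ : F) * v (algebraMap L F ϖ) * 1 * 1 :=
            mul_le_mul' (mul_le_mul' le_rfl (val_le_of_mem D hψO)) (val_le_of_mem D r.2)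
        _ = v (ℓ : F) * v (algebraMap L F ϖ) := by rw [mul_one, mul_one]
    refine lt_of_le_of_lt h3 ?_
    apply lt_of_pow_lt_pow_left₀ ℓ zero_le'
    rw [mul_pow, ← map_pow _ (algebraMap L F ϖ), hϖpow]
    calc v (ℓ : F) ^ ℓ * v π < v π ^ (ℓ - 1) * v π := mul_lt_mul_of_pos_right hbelow hρpos
      _ = v π ^ ℓ := by rw [← pow_succ, hℓ1]
  have hnum : v (n.f - h ^ ℓ) < v π := by
    rw [hdiff, sub_eq_add_neg]
    refine lt_of_le_of_lt (v.map_add _ _) (max_lt h1 ?_)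
    rwa [Valuation.map_neg]
  -- the new normal form
  have hdivh : divOf (K := L) h ∈ Divisor.degZero (K := L) (F := F) := by
    rw [Divisor.mem_degZero, degree_divOf]
  refine ⟨{ E := n.E - ⟨divOf (K := L) h, hdivh⟩
            f := n.f / h ^ ℓ
            mk_E := ?_
            f_ne := div_ne_zero n.f_ne hhℓ0
            div_f := ?_
            val_lt := ?_ }, ?_⟩
  · have h3 : Pic0.mk (⟨divOf (K := L) h, hdivh⟩ : Divisor.degZero (K := L) (F := F)) = 0 := by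
      rw [Pic0.mk, QuotientAddGroup.eq_zero_iff, AddSubgroup.mem_addSubgroupOf]
      exact divOf_mem_principal hh0
    have h4 : Pic0.mk (n.E - ⟨divOf (K := L) h, hdivh⟩)
        = Pic0.mk n.E - Pic0.mk (⟨divOf (K := L) h, hdivh⟩ : Divisor.degZero (K := L) (F := F)) :=
      rfl
    rw [h4, h3, sub_zero, n.mk_E]
  · rw [div_eq_mul_inv, divOf_mul n.f_ne (inv_ne_zero hhℓ0), divOf_inv, divOf_pow, n.div_f]
    push_cast
    rw [smul_sub, sub_eq_add_neg]
  · have h5 : n.f / h ^ ℓ - 1 = (n.f - h ^ ℓ) / h ^ ℓ := by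
      rw [sub_div, div_self hhℓ0]
    rw [h5, map_div₀, hhℓv, div_one]
    exact hnum.trans hπlt
  · show v (n.f / h ^ ℓ - 1) < v π
    have h5 : n.f / h ^ ℓ - 1 = (n.f - h ^ ℓ) / h ^ ℓ := by
      rw [sub_div, div_self hhℓ0]
    rw [h5, map_div₀, hhℓv, div_one]
    exact hnum

/-- **the cycle lemma** -/
theorem forall_isTop_of_step {V : Set (Pic0 L F)} (hfin : V.Finite)
    (T : Pic0 L F → Pic0 L F) (hT : Set.MapsTo T V V) (hTinj : Set.InjOn T V)
    (hopt : ∀ x ∈ V, IsTop D ℓ x ∨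
      ∃ n : NForm D ℓ x, ∀ n' : NForm D ℓ x, n.depth ≤ n'.depth)
    (hstep : ∀ x ∈ V, ∀ n : NForm D ℓ x, ¬ n.depth ^ (ℓ - 1) ≤ D.O.valuation (ℓ : F) ^ ℓ →
      ∃ n' : NForm D ℓ (T x), n'.depth < n.depth)
    (htop : ∀ x ∈ V, IsTop D ℓ x → IsTop D ℓ (T x)) :
    ∀ x ∈ V, IsTop D ℓ x := by
  classical
  by_contra hcon
  push_neg at hcon
  obtain ⟨x₀, hx₀V, hx₀⟩ := hcon
  have hbij : Set.BijOn T V V := (hfin.injOn_iff_bijOn_of_mapsTo hT).1 hTinj
  -- the optimal depth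
  have key : ∀ x : Pic0 L F, ∃ d : D.O.ValueGroup, x ∈ V → ¬ IsTop D ℓ x →
      ∃ n : NForm D ℓ x, n.depth = d ∧ ∀ n' : NForm D ℓ x, n.depth ≤ n'.depth := by
    intro x
    by_cases h : x ∈ V ∧ ¬ IsTop D ℓ x
    · obtain ⟨n, hn⟩ := (hopt x h.1).resolve_left h.2
      exact ⟨n.depth, fun _ _ => ⟨n, rfl, hn⟩⟩
    · exact ⟨0, fun h1 h2 => absurd ⟨h1, h2⟩ h⟩
  choose δ hδ using key
  set B : Finset (Pic0 L F) := hfin.toFinset.filter fun x => ¬ IsTop D ℓ x with hB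
  have hmemB : ∀ x, x ∈ B ↔ x ∈ V ∧ ¬ IsTop D ℓ x := fun x => by
    rw [hB, Finset.mem_filter, Set.Finite.mem_toFinset]
  have hBne : B.Nonempty := ⟨x₀, (hmemB x₀).2 ⟨hx₀V, hx₀⟩⟩
  obtain ⟨x₁, hx₁B, hmax⟩ := Finset.exists_max_image B δ hBne
  obtain ⟨hx₁V, hx₁⟩ := (hmemB x₁).1 hx₁B
  obtain ⟨y, hyV, hyx⟩ := hbij.surjOn hx₁V
  have hy : ¬ IsTop D ℓ y := fun h => hx₁ (hyx ▸ htop y hyV h)
  obtain ⟨ny, hnyd, hnyopt⟩ := hδ y hyV hy
  have hnytop : ¬ ny.depth ^ (ℓ - 1) ≤ D.O.valuation (ℓ : F) ^ ℓ := fun h => hy ⟨ny, h⟩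
  obtain ⟨n', hn'⟩ := hstep y hyV ny hnytop
  obtain ⟨n₁, hn₁d, hn₁opt⟩ := hδ x₁ hx₁V hx₁
  subst hyx
  have h1 : n₁.depth ≤ n'.depth := hn₁opt n'
  have h2 : δ y ≤ δ (T y) := hmax y ((hmemB y).2 ⟨hyV, hy⟩)
  rw [← hnyd, ← hn₁d] at h2
  exact absurd (lt_of_le_of_lt h1 hn') (not_lt.2 h2)

end Fermat.Agent.S15lib.ORD
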