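/-
S15lib / ORD / Val  (helper5)  — Project E, block ORD, part 1 (pure valuation algebra)

`D : RedDatum A F Fk`, `v = D.O.valuation` (the Gauss valuation of `F`), `ℓ` a prime,
the residue field `k` of `A` perfect (every element an `ℓ`-th power).

* `exists_pow_eq_redF_div` : if `η ∈ 𝔪_O`, `π₀ ∈ L` is *below top* (`v(ℓ)^ℓ < v(π₀)^(ℓ-1)`) and
  `Y = (1 + η)^ℓ - 1` satisfies `v(Y) ≤ v(π₀)` then the reduction of `Y / π₀` is an `ℓ`-th power.
* `exists_eq_add_pow_of_deeper` : **stuck ⇒ optimal**, algebraic core.  If `f = 1 + π₀ g`,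
  `f' = γ f h^ℓ` with `h` a unit of `O`, `γ = 1 + π₀ c₁`, `c₁ ∈ A`, and `f' - 1 ∈ π₀ 𝔪_O`, then
  `ḡ ∈ k + Fk^ℓ`.
-/
import Mathlib
import Fermat.Agent.S18lib.Setup.DatumLemmas

set_option autoImplicit false
set_option linter.unusedSectionVars false

noncomputable section

namespace Fermat.Agent.S15lib.ORD

open AlgebraicCurve Fermat.Agent.S18lib

variable {L : Type*} [Field L] {A : ValuationSubring L}
variable {F : Type*} [Field F] [Algebra L F]
variable {Fk : Type*} [Field Fk] [Algebra (IsLocalRing.ResidueField A) Fk]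

local notation "k" => IsLocalRing.ResidueField A

variable (D : RedDatum A F Fk)

/-! ### dictionary valuation / reduction -/

theorem mem_of_val_le {x : F} (h : D.O.valuation x ≤ 1) : x ∈ D.O :=
  (D.O.valuation_le_one_iff x).1 h

theorem val_le_of_mem {x : F} (h : x ∈ D.O) : D.O.valuation x ≤ 1 :=
  (D.O.valuation_le_one_iff x).2 h

theorem redF_eq_zero_of_val_lt {x : F} (h : D.O.valuation x < 1) : D.redF x = 0 := by
  have hx : x ∈ D.O := mem_of_val_le D h.le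
  rw [D.redF_eq_zero_iff hx, D.O.valuation_lt_one_iff]
  exact h

theorem val_lt_of_redF_eq_zero {x : F} (hx : x ∈ D.O) (h : D.redF x = 0) :
    D.O.valuation x < 1 := by
  rw [D.redF_eq_zero_iff hx, D.O.valuation_lt_one_iff] at h
  exact h

theorem val_eq_one_of_redF_ne_zero {x : F} (h : D.redF x ≠ 0) : D.O.valuation x = 1 := by
  obtain ⟨u, rfl⟩ := D.redF_ne_zero_iff.1 h
  exact D.O.valuation_unit u

theorem redF_ne_zero_of_val_eq_one {x : F} (h : D.O.valuation x = 1) : D.redF x ≠ 0 := by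
  intro h0
  have := val_lt_of_redF_eq_zero D (mem_of_val_le D h.le) h0
  rw [h] at this
  exact lt_irrefl _ this

/-- the valuation of a constant: `≤ 1` iff in `A` -/
theorem val_algebraMap_le_one_iff (c : L) :
    D.O.valuation (algebraMap L F c) ≤ 1 ↔ c ∈ A := by
  rw [D.O.valuation_le_one_iff, D.algebraMap_mem_iff]

/-- the valuation of a constant: `< 1` iff in `𝔪_A` -/
theorem val_algebraMap_lt_one_iff (c : L) :
    D.O.valuation (algebraMap L F c) < 1 ↔ A.valuation c < 1 := by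
  constructor
  · intro h
    have hc : c ∈ A := (val_algebraMap_le_one_iff D c).1 h.le
    have h0 := redF_eq_zero_of_val_lt D h
    have h1 := (D.redF_algebraMap_eq_zero_iff ⟨c, hc⟩).1 h0
    exact (A.valuation_lt_one_iff _).1 h1
  · intro h
    have hc : c ∈ A := (A.valuation_le_one_iff c).1 h.le
    have h1 : (⟨c, hc⟩ : A) ∈ IsLocalRing.maximalIdeal A := (A.valuation_lt_one_iff _).2 h
    have h0 := (D.redF_algebraMap_eq_zero_iff ⟨c, hc⟩).2 h1
    exact val_lt_of_redF_eq_zero D (D.algebraMap_mem ⟨c, hc⟩) h0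

/-- comparison of the two valuations on constants -/
theorem val_algebraMap_le_iff (c d : L) :
    D.O.valuation (algebraMap L F c) ≤ D.O.valuation (algebraMap L F d)
      ↔ A.valuation c ≤ A.valuation d := by
  rcases eq_or_ne d 0 with rfl | hd
  · simp only [map_zero, le_zero_iff, map_eq_zero]
  · have hdF : algebraMap L F d ≠ 0 := (map_ne_zero _).2 hd
    have h1 : 0 < D.O.valuation (algebraMap L F d) :=
      zero_lt_iff.2 ((Valuation.ne_zero_iff _).2 hdF)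
    have h2 : 0 < A.valuation d := zero_lt_iff.2 ((Valuation.ne_zero_iff _).2 hd)
    rw [← div_le_one₀ h1, ← div_le_one₀ h2, ← map_div₀, ← map_div₀, ← map_div₀,
      val_algebraMap_le_one_iff, A.valuation_le_one_iff]

theorem val_algebraMap_lt_iff (c d : L) :
    D.O.valuation (algebraMap L F c) < D.O.valuation (algebraMap L F d)
      ↔ A.valuation c < A.valuation d := by
  rw [← not_le, ← not_le, val_algebraMap_le_iff]

theorem val_natCast_le_one (n : ℕ) : D.O.valuation (n : F) ≤ 1 :=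
  val_le_of_mem D (natCast_mem D.O n)

/-! ### the `ℓ`-th power lemma -/

variable {ℓ : ℕ}

/-- **the `ℓ`-th power lemma**: below top, `((1 + η)^ℓ - 1) / π₀` reduces to an `ℓ`-th power. -/
theorem exists_pow_eq_redF_div (hℓ : ℓ.Prime) (hperf : ∀ a : k, ∃ b : k, b ^ ℓ = a)
    {η : F} (hη : D.O.valuation η < 1) {π₀ : L} (hπ0 : π₀ ≠ 0)
    (hbelow : D.O.valuation (ℓ : F) ^ ℓ < D.O.valuation (algebraMap L F π₀) ^ (ℓ - 1))
    (hY : D.O.valuation ((1 + η) ^ ℓ - 1) ≤ D.O.valuation (algebraMap L F π₀)) :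
    ∃ ψ : Fk, D.redF (((1 + η) ^ ℓ - 1) / algebraMap L F π₀) = ψ ^ ℓ := by
  set v := D.O.valuation with hv
  set π := algebraMap L F π₀ with hπ
  have hπne : π ≠ 0 := (map_ne_zero _).2 hπ0
  have hρ0 : v π ≠ 0 := (Valuation.ne_zero_iff _).2 hπne
  have hρpos : 0 < v π := zero_lt_iff.2 hρ0
  have hℓ1 : ℓ - 1 + 1 = ℓ := Nat.sub_add_cancel hℓ.pos
  have hℓ1' : ℓ - 1 ≠ 0 := by have := hℓ.two_le; omega
  have hηO : η ∈ D.O := mem_of_val_le D hη.le
  obtain ⟨r, hr⟩ := exists_add_pow_prime_eq hℓ (⟨η, hηO⟩ : D.O) 1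
  have hdec : (1 + η) ^ ℓ - 1 = η ^ ℓ + (ℓ : F) * η * (r : F) := by
    have h1 := congrArg (fun z : D.O => (z : F)) hr
    simp only [one_pow, mul_one] at h1
    push_cast at h1
    rw [add_comm 1 η, h1]
    ring
  have hr1 : v (r : F) ≤ 1 := val_le_of_mem D r.2
  set Z := (ℓ : F) * η * (r : F) with hZdef
  have hZ : v Z ≤ v (ℓ : F) * v η := by
    rw [hZdef, map_mul, map_mul]
    calc v (ℓ : F) * v η * v (r : F) ≤ v (ℓ : F) * v η * 1 := mul_le_mul' le_rfl hr1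
      _ = v (ℓ : F) * v η := mul_one _
  -- reduction of an element of valuation `< v π` divided by `π`
  have hsmall : ∀ y : F, v y < v π → D.redF (y / π) = 0 := by
    intro y hy
    apply redF_eq_zero_of_val_lt D
    rw [map_div₀]
    exact (div_lt_one₀ hρpos).2 hy
  have hsmallO : ∀ y : F, v y ≤ v π → y / π ∈ D.O := by
    intro y hy
    apply mem_of_val_le D
    rw [map_div₀]
    exact (div_le_one₀ hρpos).2 hy
  rcases le_or_gt (v η ^ (ℓ - 1)) (v (ℓ : F)) with h1 | h1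
  · -- `η` deep: everything is small
    have hηℓ : v (η ^ ℓ) ≤ v (ℓ : F) * v η := by
      rw [map_pow, ← hℓ1, pow_succ, hℓ1]
      exact mul_le_mul' h1 le_rfl
    have hYle : v ((1 + η) ^ ℓ - 1) ≤ v (ℓ : F) * v η := by
      rw [hdec]
      exact (v.map_add _ _).trans (max_le hηℓ hZ)
    have hYlt : v ((1 + η) ^ ℓ - 1) < v π := by
      by_contra hcon
      rw [not_lt] at hcon
      have h2 : v π ≤ v (ℓ : F) * v η := hcon.trans hYle
      have h3 : v π ^ (ℓ - 1) ≤ (v (ℓ : F) * v η) ^ (ℓ - 1) :=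
        pow_le_pow_left₀ zero_le' h2 _
      have h4 : (v (ℓ : F) * v η) ^ (ℓ - 1) ≤ v (ℓ : F) ^ ℓ := by
        rw [mul_pow]
        calc v (ℓ : F) ^ (ℓ - 1) * v η ^ (ℓ - 1) ≤ v (ℓ : F) ^ (ℓ - 1) * v (ℓ : F) :=
              mul_le_mul' le_rfl h1
          _ = v (ℓ : F) ^ ℓ := by rw [← pow_succ, hℓ1]
      exact absurd (h3.trans h4) (not_le.2 hbelow)
    exact ⟨0, by rw [hsmall _ hYlt, zero_pow hℓ.ne_zero]⟩
  · -- `η` shallow: `Y = η^ℓ (1 + small)`
    have hη0' : v η ≠ 0 := by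
      intro h0
      rw [h0, zero_pow hℓ1'] at h1
      exact not_lt_zero' h1
    have hηpos : 0 < v η := zero_lt_iff.2 hη0'
    have hη0 : η ≠ 0 := (Valuation.ne_zero_iff _).1 hη0'
    have hZlt : v Z < v (η ^ ℓ) := by
      rw [map_pow]
      calc v Z ≤ v (ℓ : F) * v η := hZ
        _ < v η ^ (ℓ - 1) * v η := mul_lt_mul_of_pos_right h1 hηpos
        _ = v η ^ ℓ := by rw [← pow_succ, hℓ1]
    have hYeq : v ((1 + η) ^ ℓ - 1) = v (η ^ ℓ) := by
      rw [hdec]
      exact v.map_add_eq_of_lt_left hZlt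
    rcases hY.lt_or_eq with h2 | h2
    · exact ⟨0, by rw [hsmall _ h2, zero_pow hℓ.ne_zero]⟩
    · -- the critical case `v η ^ ℓ = v π`
      have hηπ : v (η ^ ℓ) = v π := hYeq.symm.trans h2
      obtain ⟨c, hc, u, hu⟩ := D.exists_const_mul_isUnit η hη0
      have hcF : algebraMap L F c ≠ 0 := (map_ne_zero _).2 hc
      have hηu : η = (algebraMap L F c)⁻¹ * ((u : D.O) : F) := by
        rw [← hu, ← mul_assoc, inv_mul_cancel₀ hcF, one_mul]
      set κ : L := (c ^ ℓ * π₀)⁻¹ with hκ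
      have hκη : η ^ ℓ / π = algebraMap L F κ * ((u : D.O) : F) ^ ℓ := by
        rw [hκ, map_inv₀, map_mul, map_pow, hηu, mul_pow, inv_pow, hπ]
        field_simp
      have hvu : v ((u : D.O) : F) = 1 := D.O.valuation_unit u
      have hκ1 : v (algebraMap L F κ) = 1 := by
        have h3 : v (η ^ ℓ / π) = 1 := by
          rw [map_div₀, hηπ, div_self hρ0]
        rw [hκη, map_mul, map_pow, hvu, one_pow, mul_one] at h3
        exact h3
      have hκA : κ ∈ A := (val_algebraMap_le_one_iff D κ).1 hκ1.le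
      obtain ⟨b, hb⟩ := hperf (IsLocalRing.residue A ⟨κ, hκA⟩)
      refine ⟨algebraMap k Fk b * D.redF ((u : D.O) : F), ?_⟩
      have hsplit : ((1 + η) ^ ℓ - 1) / π = η ^ ℓ / π + Z / π := by
        rw [hdec, add_div]
      have hZlt' : v Z < v π := hηπ ▸ hZlt
      rw [hsplit, D.redF_add (hsmallO _ hηπ.le) (hsmallO _ hZlt'.le), hsmall _ hZlt', add_zero,
        hκη]
      have h4 := D.redF_smul ⟨κ, hκA⟩ (pow_mem (u : D.O).2 ℓ)
      rw [show algebraMap L F ((⟨κ, hκA⟩ : A) : L) = algebraMap L F κ from rfl] at h4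
      rw [h4, D.redF_pow (u : D.O).2, mul_pow, ← map_pow, hb, Algebra.smul_def]

/-- `x ^ n = 1` in the value group forces `x = 1` -/
theorem val_eq_one_of_pow_eq_one {x : F} {n : ℕ} (hn : n ≠ 0)
    (h : D.O.valuation x ^ n = 1) : D.O.valuation x = 1 := by
  rcases lt_trichotomy (D.O.valuation x) 1 with h1 | h1 | h1
  · exact absurd h (pow_lt_one₀ zero_le' h1 hn).ne
  · exact h1
  · exact absurd h (one_lt_pow₀ h1 hn).ne'

/-- **stuck ⇒ optimal, algebraic core.**  If `f = 1 + π₀ g` is below top and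
`f' = γ f h^ℓ` (`γ = 1 + π₀ c₁`, `c₁ ∈ A`) is strictly deeper than `π₀`, then `ḡ ∈ k + Fk^ℓ`. -/
theorem exists_eq_add_pow_of_deeper (hℓ : ℓ.Prime) [CharP Fk ℓ]
    (hperf : ∀ a : k, ∃ b : k, b ^ ℓ = a)
    {π₀ : L} (hπ0 : π₀ ≠ 0) (hπ1 : A.valuation π₀ < 1)
    (hbelow : D.O.valuation (ℓ : F) ^ ℓ < D.O.valuation (algebraMap L F π₀) ^ (ℓ - 1))
    {g h f' : F} {c₁ : L} (hg : g ∈ D.O) (hc₁ : c₁ ∈ A)
    (hf' : f' = algebraMap L F (1 + π₀ * c₁) * (1 + algebraMap L F π₀ * g) * h ^ ℓ)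
    (hdeep : D.O.valuation (f' - 1) < D.O.valuation (algebraMap L F π₀)) :
    ∃ (a : k) (ψ : Fk), D.redF g = algebraMap k Fk a + ψ ^ ℓ := by
  haveI : Fact ℓ.Prime := ⟨hℓ⟩
  set v := D.O.valuation with hv
  set π := algebraMap L F π₀ with hπ
  have hπne : π ≠ 0 := (map_ne_zero _).2 hπ0
  have hρ0 : v π ≠ 0 := (Valuation.ne_zero_iff _).2 hπne
  have hρpos : 0 < v π := zero_lt_iff.2 hρ0
  have hπlt : v π < 1 := (val_algebraMap_lt_one_iff D π₀).2 hπ1
  have hπO : π ∈ D.O := mem_of_val_le D hπlt.le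
  have hπred : D.redF π = 0 := redF_eq_zero_of_val_lt D hπlt
  have hc₁O : algebraMap L F c₁ ∈ D.O := D.algebraMap_mem ⟨c₁, hc₁⟩
  -- `f`
  set f := 1 + π * g with hf
  have hπgO : π * g ∈ D.O := D.O.mul_mem _ _ hπO hg
  have hfO : f ∈ D.O := D.O.add_mem _ _ D.O.one_mem hπgO
  have hfred : D.redF f = 1 := by
    rw [hf, D.redF_add D.O.one_mem hπgO, D.redF_one, D.redF_mul hπO hg, hπred, zero_mul, add_zero]
  -- `γ`
  set γ := algebraMap L F (1 + π₀ * c₁) with hγ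
  have hγeq : γ = 1 + π * algebraMap L F c₁ := by
    rw [hγ, map_add, map_one, map_mul]
  have hπcO : π * algebraMap L F c₁ ∈ D.O := D.O.mul_mem _ _ hπO hc₁O
  have hγO : γ ∈ D.O := by rw [hγeq]; exact D.O.add_mem _ _ D.O.one_mem hπcO
  have hγred : D.redF γ = 1 := by
    rw [hγeq, D.redF_add D.O.one_mem hπcO, D.redF_one, D.redF_mul hπO hc₁O, hπred, zero_mul,
      add_zero]
  -- `f'`
  have hf'1 : v (f' - 1) < 1 := hdeep.trans hπlt
  have hf'1O : f' - 1 ∈ D.O := mem_of_val_le D hf'1.le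
  have hf'O : f' ∈ D.O := by
    have := D.O.add_mem _ _ hf'1O D.O.one_mem
    rwa [sub_add_cancel] at this
  have hf'red : D.redF f' = 1 := by
    have h1 := D.redF_sub hf'O D.O.one_mem
    rw [redF_eq_zero_of_val_lt D hf'1, D.redF_one] at h1
    exact (sub_eq_zero.1 h1.symm)
  -- `γ f` is a unit
  have hγfO : γ * f ∈ D.O := D.O.mul_mem _ _ hγO hfO
  have hγfred : D.redF (γ * f) = 1 := by rw [D.redF_mul hγO hfO, hγred, hfred, one_mul]
  have hγfne : D.redF (γ * f) ≠ 0 := by rw [hγfred]; exact one_ne_zero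
  have hγf1 : v (γ * f) = 1 := val_eq_one_of_redF_ne_zero D hγfne
  have hγf0 : γ * f ≠ 0 := by
    intro h0
    rw [h0, D.redF_zero] at hγfne
    exact hγfne rfl
  have hγfinvO : (γ * f)⁻¹ ∈ D.O := D.inv_mem_of_redF_ne_zero hγfne
  have hγfinvred : D.redF (γ * f)⁻¹ = 1 := by rw [D.redF_inv hγfne, hγfred, inv_one]
  -- `h` is a unit with reduction `1`
  have hf'v : v f' = 1 :=
    val_eq_one_of_redF_ne_zero D (by rw [hf'red]; exact one_ne_zero)
  have hhℓ : h ^ ℓ = f' * (γ * f)⁻¹ := by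
    rw [hf', mul_comm (γ * f) (h ^ ℓ), mul_assoc, mul_inv_cancel₀ hγf0, mul_one]
  have hhv : v h = 1 := by
    apply val_eq_one_of_pow_eq_one D hℓ.ne_zero
    rw [← map_pow, hhℓ, map_mul, map_inv₀, hf'v, hγf1, inv_one, mul_one]
  have hhO : h ∈ D.O := mem_of_val_le D hhv.le
  have hhred : D.redF h = 1 := by
    have h1 : D.redF h ^ ℓ = 1 := by
      rw [← D.redF_pow hhO, hhℓ, D.redF_mul hf'O hγfinvO, hf'red, hγfinvred, one_mul]
    have h2 : (D.redF h - 1) ^ ℓ = 0 := by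
      rw [sub_pow_char, h1, one_pow, sub_self]
    exact sub_eq_zero.1 (pow_eq_zero_iff hℓ.ne_zero |>.1 h2)
  set η := h - 1 with hηdef
  have hηO : η ∈ D.O := D.O.sub_mem hhO D.O.one_mem
  have hηlt : v η < 1 := by
    apply val_lt_of_redF_eq_zero D hηO
    rw [hηdef, D.redF_sub hhO D.O.one_mem, hhred, D.redF_one, sub_self]
  have hh1 : 1 + η = h := by rw [hηdef]; ring
  -- the key identity
  have hf'1πO : (f' - 1) / π ∈ D.O := by
    apply mem_of_val_le D
    rw [map_div₀]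
    exact (div_le_one₀ hρpos).2 hdeep.le
  have hf'1πred : D.redF ((f' - 1) / π) = 0 := by
    apply redF_eq_zero_of_val_lt D
    rw [map_div₀]
    exact (div_lt_one₀ hρpos).2 hdeep
  have hγgO : γ * g ∈ D.O := D.O.mul_mem _ _ hγO hg
  have hkey : ((1 + η) ^ ℓ - 1) / π
      = ((f' - 1) / π - algebraMap L F c₁ - γ * g) * (γ * f)⁻¹ := by
    rw [hh1, hhℓ]
    have hγ1 : γ - 1 = π * algebraMap L F c₁ := by rw [hγeq]; ring
    have hf1 : f - 1 = π * g := by rw [hf]; ring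
    have h3 : f' - γ * f = (f' - 1) - π * algebraMap L F c₁ - γ * (π * g) := by
      rw [← hγ1, ← hf1]; ring
    have h4 : f' * (γ * f)⁻¹ - 1 = (f' - γ * f) * (γ * f)⁻¹ := by
      rw [sub_mul, mul_inv_cancel₀ hγf0]
    rw [h4, h3]
    field_simp
  have hbrO : (f' - 1) / π - algebraMap L F c₁ - γ * g ∈ D.O :=
    D.O.sub_mem (D.O.sub_mem hf'1πO hc₁O) hγgO
  have hYO : ((1 + η) ^ ℓ - 1) / π ∈ D.O := by
    rw [hkey]; exact D.O.mul_mem _ _ hbrO hγfinvO
  have hYle : v ((1 + η) ^ ℓ - 1) ≤ v π := by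
    have h5 := val_le_of_mem D hYO
    rw [map_div₀] at h5
    exact (div_le_one₀ hρpos).1 h5
  have hYred : D.redF (((1 + η) ^ ℓ - 1) / π)
      = - algebraMap k Fk (IsLocalRing.residue A ⟨c₁, hc₁⟩) - D.redF g := by
    rw [hkey, D.redF_mul hbrO hγfinvO, hγfinvred, mul_one,
      D.redF_sub (D.O.sub_mem hf'1πO hc₁O) hγgO, D.redF_sub hf'1πO hc₁O, hf'1πred,
      D.redF_mul hγO hg, hγred, one_mul, zero_sub]
    congr 2
    exact D.redF_algebraMap ⟨c₁, hc₁⟩
  obtain ⟨ψ, hψ⟩ := exists_pow_eq_redF_div D hℓ hperf hηlt hπ0 hbelow hYle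
  refine ⟨- IsLocalRing.residue A ⟨c₁, hc₁⟩, -ψ, ?_⟩
  have h6 : (-ψ) ^ ℓ = - ψ ^ ℓ := by
    have := sub_pow_char (0 : Fk) ψ (p := ℓ)
    rwa [zero_sub, zero_pow hℓ.ne_zero, zero_sub] at this
  rw [h6, ← hψ, hYred, map_neg]
  ring

end Fermat.Agent.S15lib.ORD
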